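/-
DELTA / package I3 (helper4), part 1: **the trace trick** (abstract form).

`Ω` is an ambient field (in the application `LaurentSeries ℚ̄`) with an action of a group `G` (in
the application the subgroup `H₁` of the inertia group fixing `ζ_p`, acting coefficientwise);
`Cst ≤ Fb ≤ Fb'` are subfields (constants, the function field of `X` over `ℚ̄`, the function field
of the cover `Y`), `τ` a ring endomorphism of `Fb'` fixing `Fb` and commuting with `G`, with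
`τ y = ζ y`.

Input: `zx ∈ Fb` with a `p`-th root `s ∈ Ω` having a finite-index stabiliser, such that for every
`σ ∈ G` the quotient `σ zx / zx` is a constant times the `p`-th power of `y ^ a(σ) g`, `g ∈ Fb`
(i.e. `σ x - x = a(σ) l₀` in the Jacobian).

Output (`dla_trace`): `ρ ∈ Fb'ˣ` such that `z' := zx ρ ^ p` is `G`-FIXED, and `ht ∈ Fb'ˣ` with
`τ z' = ht ^ p z'` and `σ ht = ζ ^ (-a(σ)) ht`.

`dla_peu`: if moreover `u = w ^ p` is a `G`-fixed constant such that every `σ` fixing `w` has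
`ζ ^ a(σ) = 1` (PEU), then `g := w ^ n ht` is `G`-fixed for a suitable `n`, so that
`u ^ n τ z' = g ^ p z'` (`dla_export`).
-/
import Mathlib

set_option autoImplicit false
set_option linter.unusedSectionVars false
set_option linter.unusedVariables false
set_option linter.style.haveILetI false

namespace Fermat.Agent.Delta

open scoped Pointwise

section Trace

variable {G Ω : Type*} [Group G] [Field Ω] [CharZero Ω] [MulSemiringAction G Ω]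

/-- the orbit map `σ N ↦ σ • t` of an `N`-fixed element `t` -/
def dlaOrb (N : Subgroup G) (t : Ω) (ht : ∀ ν ∈ N, ν • t = t) : G ⧸ N → Ω :=
  fun q => Quotient.liftOn' q (fun σ => σ • t) (by
    intro a b hab
    rw [QuotientGroup.leftRel_apply] at hab
    have h1 := ht _ hab
    rw [mul_smul] at h1
    show a • t = b • t
    have h2 : a • (a⁻¹ • b • t) = a • t := by rw [h1]
    rw [smul_inv_smul] at h2
    exact h2.symm)

theorem dlaOrb_mk (N : Subgroup G) (t : Ω) (ht : ∀ ν ∈ N, ν • t = t) (σ : G) :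
    dlaOrb N t ht (QuotientGroup.mk σ) = σ • t := rfl

theorem dlaOrb_smul (N : Subgroup G) (t : Ω) (ht : ∀ ν ∈ N, ν • t = t) (τ : G) (q : G ⧸ N) :
    τ • dlaOrb N t ht q = dlaOrb N t ht (τ • q) := by
  induction q using QuotientGroup.induction_on with
  | H σ =>
    rw [dlaOrb_mk, ← mul_smul]
    rfl

/-- the coset sum `∑_{σ N ∈ G / N} σ • t` of an `N`-fixed element `t` -/
noncomputable def dlaSum (N : Subgroup G) [N.FiniteIndex] (t : Ω) (ht : ∀ ν ∈ N, ν • t = t) : Ω :=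
  letI := Subgroup.fintypeQuotientOfFiniteIndex (H := N)
  ∑ q : G ⧸ N, dlaOrb N t ht q

theorem dlaSum_smul (N : Subgroup G) [N.FiniteIndex] (t : Ω) (ht : ∀ ν ∈ N, ν • t = t) (τ : G) :
    τ • dlaSum N t ht = dlaSum N t ht := by
  classical
  letI := Subgroup.fintypeQuotientOfFiniteIndex (H := N)
  unfold dlaSum
  rw [Finset.smul_sum]
  refine Fintype.sum_equiv (MulAction.toPerm τ) _ _ ?_
  intro q
  rw [dlaOrb_smul]
  rfl

/-- an additive functional commuting with the action sends the coset sum to the index -/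
theorem dlaSum_map (N : Subgroup G) [N.FiniteIndex] (t : Ω) (ht : ∀ ν ∈ N, ν • t = t)
    (ℓ : Ω →+ Ω) (hℓ : ∀ (σ : G) (f : Ω), ℓ (σ • f) = σ • ℓ f) (hone : ℓ t = 1) :
    ℓ (dlaSum N t ht) = (N.index : Ω) := by
  classical
  letI := Subgroup.fintypeQuotientOfFiniteIndex (H := N)
  unfold dlaSum
  rw [map_sum]
  have h1 : ∀ q : G ⧸ N, ℓ (dlaOrb N t ht q) = 1 := by
    intro q
    induction q using QuotientGroup.induction_on with
    | H σ => rw [dlaOrb_mk, hℓ, hone, smul_one]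
  rw [Finset.sum_congr rfl (fun q _ => h1 q), Finset.sum_const, Finset.card_univ, nsmul_eq_mul,
    mul_one, Subgroup.index_eq_card, Nat.card_eq_fintype_card]

/-- the coset sum divided by `s` lies in every subfield containing the translates divided by `s` -/
theorem dlaSum_div_mem (N : Subgroup G) [N.FiniteIndex] (t : Ω) (ht : ∀ ν ∈ N, ν • t = t)
    (S : Subfield Ω) (s : Ω) (hmem : ∀ σ : G, σ • t / s ∈ S) : dlaSum N t ht / s ∈ S := by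
  classical
  letI := Subgroup.fintypeQuotientOfFiniteIndex (H := N)
  unfold dlaSum
  rw [Finset.sum_div]
  refine Subfield.sum_mem S ?_
  intro q _
  induction q using QuotientGroup.induction_on with
  | H σ => exact hmem σ

end Trace

section Main

variable {G Ω : Type*} [Group G] [Field Ω] [CharZero Ω] [MulSemiringAction G Ω]
variable (Cst Fb Fb' : Subfield Ω) (hCF : Cst ≤ Fb) (hle : Fb ≤ Fb')
  (hGC : ∀ (σ : G) (c : Ω), c ∈ Cst → σ • c ∈ Cst)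
  (hG' : ∀ (σ : G) (f : Ω), f ∈ Fb' → σ • f ∈ Fb')
  (τ : ↥Fb' →+* ↥Fb')
  (hτfix : ∀ f : ↥Fb', (f : Ω) ∈ Fb → τ f = f)
  (hτσ : ∀ (σ : G) (f : ↥Fb'),
    ((τ ⟨σ • (f : Ω), hG' σ f f.2⟩ : ↥Fb') : Ω) = σ • ((τ f : ↥Fb') : Ω))
  (p : ℕ) (hp : p ≠ 0)
  (ζ : Ω) (hζ0 : ζ ≠ 0) (hζF : ζ ∈ Fb)
  (y : ↥Fb') (hτy : τ y = ⟨ζ, hle hζF⟩ * y)
  (hroot : ∀ t : Ω, t ^ p ∈ Cst → t ∈ Cst)

include hCF hτfix hτy hroot hp in
/-- the quotient `σ s / s` lies in `Fb'` and is a `ζ ^ a(σ)`-eigenvector of `τ` -/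
theorem dla_quot (zx s : Ω) (hs : s ^ p = zx) (hs0 : s ≠ 0) (σ : G) (n : ℕ)
    (hcoc : ∃ κ ∈ Cst, ∃ g ∈ Fb, σ • zx = κ * ((y : Ω) ^ n * g) ^ p * zx) :
    ∃ m : ↥Fb', (m : Ω) = σ • s / s ∧ τ m = ⟨ζ, hle hζF⟩ ^ n * m := by
  obtain ⟨κ, hκ, g, hg, hσ⟩ := hcoc
  have hzx0 : zx ≠ 0 := by rw [← hs]; exact pow_ne_zero _ hs0
  have hσzx0 : σ • zx ≠ 0 := by
    intro h0
    apply hzx0
    have := congrArg (fun z => σ⁻¹ • z) h0
    simpa using this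
  have hyg0 : (y : Ω) ^ n * g ≠ 0 := by
    intro h0
    apply hσzx0
    rw [hσ, h0, zero_pow hp, mul_zero, zero_mul]
  have hσs : (σ • s) ^ p = σ • zx := by rw [← smul_pow', hs]
  set t₁ : Ω := σ • s / (s * ((y : Ω) ^ n * g)) with ht₁
  have ht₁p : t₁ ^ p = κ := by
    rw [ht₁, div_pow, hσs, hσ, mul_pow s, hs]
    have h1 : ((y : Ω) ^ n * g) ^ p ≠ 0 := pow_ne_zero _ hyg0
    field_simp
  have ht₁C : t₁ ∈ Cst := hroot t₁ (by rw [ht₁p]; exact hκ)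
  have hg' : g ∈ Fb' := hle hg
  have ht₁' : t₁ ∈ Fb' := hle (hCF ht₁C)
  refine ⟨⟨t₁, ht₁'⟩ * y ^ n * ⟨g, hg'⟩, ?_, ?_⟩
  · show t₁ * (y : Ω) ^ n * g = σ • s / s
    rw [ht₁]
    have hy0 : (y : Ω) ^ n ≠ 0 := left_ne_zero_of_mul hyg0
    have hg0 : g ≠ 0 := right_ne_zero_of_mul hyg0
    field_simp
  · rw [map_mul, map_mul, map_pow, hτy, hτfix ⟨t₁, ht₁'⟩ (hCF ht₁C), hτfix ⟨g, hg'⟩ hg, mul_pow]
    ring

include hCF hle hGC hτfix hτσ hτy hroot hp hζ0 in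
/-- **the trace trick** -/
theorem dla_trace (zx s : Ω) (hzx : zx ∈ Fb) (hs : s ^ p = zx) (hs0 : s ≠ 0)
    (N : Subgroup G) [N.FiniteIndex] (hN : ∀ ν ∈ N, ν • s = s)
    (ℓ : Ω →+ Ω) (hℓG : ∀ (σ : G) (f : Ω), ℓ (σ • f) = σ • ℓ f)
    (hℓC : ∀ c ∈ Cst, ∀ f : Ω, ℓ (c * f) = c * ℓ f) (hℓs : ℓ s ∈ Cst) (hℓs0 : ℓ s ≠ 0)
    (a : G → ℕ)
    (hcoc : ∀ σ : G, ∃ κ ∈ Cst, ∃ g ∈ Fb, σ • zx = κ * ((y : Ω) ^ a σ * g) ^ p * zx) :
    ∃ ρ ht : ↥Fb', ρ ≠ 0 ∧ ht ≠ 0 ∧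
      (∀ σ : G, σ • (zx * (ρ : Ω) ^ p) = zx * (ρ : Ω) ^ p) ∧
      τ (⟨zx, hle hzx⟩ * ρ ^ p) = ht ^ p * (⟨zx, hle hzx⟩ * ρ ^ p) ∧
      ∀ σ : G, σ • (ht : Ω) * ζ ^ a σ = ht := by
  classical
  -- the normalised root
  set lam : Ω := (ℓ s)⁻¹ with hlam
  have hlamC : lam ∈ Cst := Cst.inv_mem hℓs
  set t : Ω := lam * s with ht
  have hNt : ∀ ν ∈ N, ν • t = t := by
    intro ν hν
    rw [ht, smul_mul', hN ν hν, hlam, smul_inv'', ← hℓG, hN ν hν]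
  have hℓt : ℓ t = 1 := by
    rw [ht, hℓC lam hlamC, hlam, inv_mul_cancel₀ hℓs0]
  set s' : Ω := dlaSum N t hNt with hs'
  have hs'G : ∀ σ : G, σ • s' = s' := fun σ => dlaSum_smul N t hNt σ
  have hs'0 : s' ≠ 0 := by
    intro h0
    have h1 := dlaSum_map N t hNt ℓ hℓG hℓt
    rw [← hs', h0, map_zero] at h1
    have h2 : (N.index : Ω) ≠ 0 := by
      exact_mod_cast Subgroup.FiniteIndex.index_ne_zero
    exact h2 h1.symm
  -- the quotients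
  have hq : ∀ σ : G, ∃ m : ↥Fb', (m : Ω) = σ • s / s ∧ τ m = ⟨ζ, hle hζF⟩ ^ a σ * m :=
    fun σ => dla_quot Cst Fb Fb' hCF hle τ hτfix p hp ζ hζF y hτy hroot zx s hs hs0 σ (a σ)
      (hcoc σ)
  have hρmem : s' / s ∈ Fb' := by
    refine dlaSum_div_mem N t hNt Fb' s ?_
    intro σ
    obtain ⟨m, hm, -⟩ := hq σ
    have h1 : σ • t / s = σ • lam * (m : Ω) := by
      rw [ht, smul_mul', hm]
      field_simp
    rw [h1]
    exact Fb'.mul_mem (hle (hCF (hGC σ lam hlamC))) m.2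
  set ρ : ↥Fb' := ⟨s' / s, hρmem⟩ with hρ
  have hρ0 : ρ ≠ 0 := by
    intro h0
    have := congrArg (fun z : ↥Fb' => (z : Ω)) h0
    simp only [hρ] at this
    exact (div_ne_zero hs'0 hs0) this
  have hτρ0 : τ ρ ≠ 0 := (map_ne_zero τ).mpr hρ0
  have hz' : zx * (ρ : Ω) ^ p = s' ^ p := by
    show zx * (s' / s) ^ p = s' ^ p
    rw [← hs, div_pow]
    field_simp
  refine ⟨ρ, τ ρ * ρ⁻¹, hρ0, mul_ne_zero hτρ0 (inv_ne_zero hρ0), ?_, ?_, ?_⟩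
  · intro σ
    rw [hz', smul_pow', hs'G]
  · rw [map_mul, map_pow, hτfix ⟨zx, hle hzx⟩ hzx, mul_pow, inv_pow]
    have h1 : ρ ^ p ≠ 0 := pow_ne_zero _ hρ0
    field_simp
  · intro σ
    obtain ⟨m, hm, hτm⟩ := hq σ
    have hσs0 : σ • s ≠ 0 := by
      intro h0
      apply hs0
      have := congrArg (fun z => σ⁻¹ • z) h0
      simpa using this
    have hm0 : m ≠ 0 := by
      intro h0
      have := congrArg (fun z : ↥Fb' => (z : Ω)) h0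
      rw [hm] at this
      exact (div_ne_zero hσs0 hs0) this
    have hσρ : (⟨σ • (ρ : Ω), hG' σ ρ ρ.2⟩ : ↥Fb') = ρ * m⁻¹ := by
      apply Subtype.ext
      show σ • (s' / s) = s' / s * ((m : Ω))⁻¹
      rw [hm, smul_div₀', hs'G]
      field_simp
    have h1 := hτσ σ ρ
    rw [hσρ, map_mul, map_inv₀, hτm] at h1
    have hζ' : (⟨ζ, hle hζF⟩ : ↥Fb') ≠ 0 := by
      intro h0
      exact hζ0 (congrArg (fun z : ↥Fb' => (z : Ω)) h0)
    show σ • (((τ ρ : ↥Fb') : Ω) * ((ρ : ↥Fb') : Ω)⁻¹) * ζ ^ a σ = ((τ ρ : ↥Fb') : Ω) * ((ρ : ↥Fb') : Ω)⁻¹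
    rw [smul_mul', smul_inv'', ← h1]
    have h2 : σ • ((ρ : ↥Fb') : Ω) = (ρ : Ω) * ((m : Ω))⁻¹ := by
      have := congrArg (fun z : ↥Fb' => (z : Ω)) hσρ
      exact this
    rw [h2]
    have hρΩ : ((ρ : ↥Fb') : Ω) ≠ 0 := fun h0 => hρ0 (Subtype.ext h0)
    have hmΩ : ((m : ↥Fb') : Ω) ≠ 0 := fun h0 => hm0 (Subtype.ext h0)
    have hτρΩ : ((τ ρ : ↥Fb') : Ω) ≠ 0 := fun h0 => hτρ0 (Subtype.ext h0)
    push_cast
    field_simp

end Main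

section Peu

variable {G Ω : Type*} [Group G] [Field Ω] [MulSemiringAction G Ω]

/-- **consumption of PEU** (no Kummer theory): if `σ ht = ζ ^ (-a(σ)) ht`, `w ^ p = u` is fixed by
`G` and every `σ` fixing `w` has `ζ ^ a(σ) = 1`, then `w ^ n ht` is `G`-fixed for some `n`. -/
theorem dla_peu {p : ℕ} (hp : p.Prime) (ζ : Ω) (hζ : IsPrimitiveRoot ζ p)
    (hζG : ∀ σ : G, σ • ζ = ζ) (a : G → ℕ) (ht w u : Ω) (hht : ∀ σ : G, σ • ht * ζ ^ a σ = ht)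
    (hw : w ^ p = u) (hu0 : u ≠ 0) (huG : ∀ σ : G, σ • u = u)
    (hpeu : ∀ σ : G, σ • w = w → ζ ^ a σ = 1) :
    ∃ n : ℕ, ∀ σ : G, σ • (w ^ n * ht) = w ^ n * ht := by
  haveI : NeZero p := ⟨hp.ne_zero⟩
  have hw0 : w ≠ 0 := by
    intro h0
    apply hu0
    rw [← hw, h0, zero_pow hp.ne_zero]
  have hζ0 : ζ ≠ 0 := hζ.ne_zero hp.ne_zero
  -- the exponent of `σ` on `w`
  have hb : ∀ σ : G, ∃ i : ℕ, σ • w = ζ ^ i * w := by
    intro σ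
    have h1 : (σ • w / w) ^ p = 1 := by
      rw [div_pow, ← smul_pow', hw, huG, div_self hu0]
    obtain ⟨i, -, hi⟩ := hζ.eq_pow_of_pow_eq_one h1
    refine ⟨i, ?_⟩
    rw [hi]
    field_simp
  by_cases hall : ∀ σ : G, σ • w = w
  · refine ⟨0, fun σ => ?_⟩
    have h1 := hht σ
    rw [hpeu σ (hall σ), mul_one] at h1
    rw [pow_zero, one_mul, h1]
  · push Not at hall
    obtain ⟨σ₀, hσ₀⟩ := hall
    obtain ⟨b₀, hb₀⟩ := hb σ₀
    have hb₀' : ¬ p ∣ b₀ := by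
      intro hdvd
      apply hσ₀
      rw [hb₀, (hζ.pow_eq_one_iff_dvd b₀).mpr hdvd, one_mul]
    have hcop : Nat.Coprime b₀ p := ((Nat.Prime.coprime_iff_not_dvd hp).mpr hb₀').symm
    obtain ⟨c, -, hc⟩ := Nat.exists_mul_mod_eq_one_of_coprime hcop hp.one_lt
    have hζc : ζ ^ (b₀ * c) = ζ := by
      conv_lhs => rw [← Nat.div_add_mod (b₀ * c) p, pow_add, pow_mul, hζ.pow_eq_one, one_pow,
        one_mul, hc, pow_one]
    -- powers of `σ₀`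
    have hpow : ∀ r : ℕ, (σ₀ ^ r) • w = ζ ^ (r * b₀) * w ∧ (σ₀ ^ r) • ht * ζ ^ (r * a σ₀) = ht := by
      intro r
      induction r with
      | zero => simp
      | succ r ih =>
        obtain ⟨ih1, ih2⟩ := ih
        refine ⟨?_, ?_⟩
        · rw [pow_succ, mul_smul, hb₀, smul_mul', smul_pow', ih1]
          have : (σ₀ ^ r) • ζ = ζ := hζG _
          rw [this]
          ring
        · have h1 := hht σ₀
          have h2 : (σ₀ ^ r) • (σ₀ • ht * ζ ^ a σ₀) = (σ₀ ^ r) • ht := by rw [h1]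
          rw [smul_mul', smul_pow', hζG] at h2
          rw [pow_succ, mul_smul]
          calc (σ₀ ^ r) • σ₀ • ht * ζ ^ ((r + 1) * a σ₀)
              = ((σ₀ ^ r) • σ₀ • ht * ζ ^ a σ₀) * ζ ^ (r * a σ₀) := by ring
            _ = (σ₀ ^ r) • ht * ζ ^ (r * a σ₀) := by rw [h2]
            _ = ht := ih2
    -- same action on `w` implies same action on `ht`
    have hsame : ∀ σ σ' : G, σ • w = σ' • w → σ • ht = σ' • ht := by
      intro σ σ' h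
      have h1 : (σ'⁻¹ * σ) • w = w := by
        rw [mul_smul, h, inv_smul_smul]
      have h2 := hht (σ'⁻¹ * σ)
      rw [hpeu _ h1, mul_one, mul_smul] at h2
      have h3 : σ' • (σ'⁻¹ • σ • ht) = σ' • ht := by rw [h2]
      rwa [smul_inv_smul] at h3
    refine ⟨a σ₀ * c, fun σ => ?_⟩
    obtain ⟨i, hi⟩ := hb σ
    obtain ⟨hr1, hr2⟩ := hpow (i * c)
    have h1 : (σ₀ ^ (i * c)) • w = σ • w := by
      rw [hr1, hi]
      congr 1
      calc ζ ^ (i * c * b₀) = (ζ ^ (b₀ * c)) ^ i := by rw [← pow_mul]; ring_nf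
        _ = ζ ^ i := by rw [hζc]
    have h2 := hsame _ _ h1
    rw [smul_mul', smul_pow', hi, ← h2]
    calc (ζ ^ i * w) ^ (a σ₀ * c) * (σ₀ ^ (i * c)) • ht
        = w ^ (a σ₀ * c) * ((σ₀ ^ (i * c)) • ht * ζ ^ (i * c * a σ₀)) := by ring
      _ = w ^ (a σ₀ * c) * ht := by rw [hr2]

end Peu

section Export

variable {G Ω : Type*} [Group G] [Field Ω] [CharZero Ω] [MulSemiringAction G Ω]

/-- **the export of I3**: under PEU there are `ρ, g ∈ Fb'ˣ` and `n` such that `z' := zx ρ ^ p` and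
`g` are `G`-fixed and `u ^ n τ z' = g ^ p z'`.  Hence, for every valuation `𝔴` of the fixed field of
`G` in `Fb'` with `𝔴 u = 0`:  `𝔴 (τ z') = 𝔴 z' + p 𝔴 g`. -/
theorem dla_export (Cst Fb Fb' : Subfield Ω) (hCF : Cst ≤ Fb) (hle : Fb ≤ Fb')
    (hGC : ∀ (σ : G) (c : Ω), c ∈ Cst → σ • c ∈ Cst)
    (hG' : ∀ (σ : G) (f : Ω), f ∈ Fb' → σ • f ∈ Fb')
    (τ : ↥Fb' →+* ↥Fb')
    (hτfix : ∀ f : ↥Fb', (f : Ω) ∈ Fb → τ f = f)
    (hτσ : ∀ (σ : G) (f : ↥Fb'),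
      ((τ ⟨σ • (f : Ω), hG' σ f f.2⟩ : ↥Fb') : Ω) = σ • ((τ f : ↥Fb') : Ω))
    {p : ℕ} (hp : p.Prime)
    (ζ : Ω) (hζ : IsPrimitiveRoot ζ p) (hζF : ζ ∈ Fb) (hζG : ∀ σ : G, σ • ζ = ζ)
    (y : ↥Fb') (hτy : τ y = ⟨ζ, hle hζF⟩ * y)
    (hroot : ∀ t : Ω, t ^ p ∈ Cst → t ∈ Cst)
    (zx s : Ω) (hzx : zx ∈ Fb) (hs : s ^ p = zx) (hs0 : s ≠ 0)
    (N : Subgroup G) [N.FiniteIndex] (hN : ∀ ν ∈ N, ν • s = s)
    (ℓ : Ω →+ Ω) (hℓG : ∀ (σ : G) (f : Ω), ℓ (σ • f) = σ • ℓ f)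
    (hℓC : ∀ c ∈ Cst, ∀ f : Ω, ℓ (c * f) = c * ℓ f) (hℓs : ℓ s ∈ Cst) (hℓs0 : ℓ s ≠ 0)
    (a : G → ℕ)
    (hcoc : ∀ σ : G, ∃ κ ∈ Cst, ∃ g ∈ Fb, σ • zx = κ * ((y : Ω) ^ a σ * g) ^ p * zx)
    (w u : Ω) (huC : u ∈ Cst) (hw : w ^ p = u) (hu0 : u ≠ 0) (huG : ∀ σ : G, σ • u = u)
    (hpeu : ∀ σ : G, σ • w = w → ζ ^ a σ = 1) :
    ∃ (ρ g : ↥Fb') (n : ℕ), ρ ≠ 0 ∧ g ≠ 0 ∧
      (∀ σ : G, σ • (zx * (ρ : Ω) ^ p) = zx * (ρ : Ω) ^ p) ∧
      (∀ σ : G, σ • (g : Ω) = g) ∧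
      (⟨u, hle (hCF huC)⟩ : ↥Fb') ^ n * τ (⟨zx, hle hzx⟩ * ρ ^ p) =
        g ^ p * (⟨zx, hle hzx⟩ * ρ ^ p) := by
  have hζ0 : ζ ≠ 0 := hζ.ne_zero hp.ne_zero
  obtain ⟨ρ, ht, hρ0, hht0, hfix, hτz, hσht⟩ :=
    dla_trace Cst Fb Fb' hCF hle hGC hG' τ hτfix hτσ p hp.ne_zero ζ hζ0 hζF y hτy hroot zx s hzx hs
      hs0 N hN ℓ hℓG hℓC hℓs hℓs0 a hcoc
  obtain ⟨n, hn⟩ := dla_peu hp ζ hζ hζG a (ht : Ω) w u hσht hw hu0 huG hpeu
  have hwC : w ∈ Cst := hroot w (by rw [hw]; exact huC)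
  have hw0 : w ≠ 0 := by
    intro h0
    apply hu0
    rw [← hw, h0, zero_pow hp.ne_zero]
  set w' : ↥Fb' := ⟨w, hle (hCF hwC)⟩ with hw'
  have hw'0 : w' ≠ 0 := fun h0 => hw0 (congrArg (fun z : ↥Fb' => (z : Ω)) h0)
  have hw'p : w' ^ p = ⟨u, hle (hCF huC)⟩ := Subtype.ext hw
  refine ⟨ρ, w' ^ n * ht, n, hρ0, mul_ne_zero (pow_ne_zero _ hw'0) hht0, hfix, hn, ?_⟩
  rw [hτz, ← hw'p, mul_pow]
  ring

end Export

end Fermat.Agent.Delta
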