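/-
DELTA / package I3 (helper4), part 3: **the model `R = Fb[X] ⧸ (X ^ p - Z)` inside `Ω`**.

`ι₀ : FbT →+* Ω` an embedding of a field with a compatible action `gAct` of `G`, `Zb ∈ FbT` fixed by
`G` with a `G`-fixed `p`-th root `yΩ ∈ Ω`.  Then `j : DlyRoot p Zb →+* Ω` (`root ↦ yΩ`) is
`G`-equivariant for the action `dlyRootAct` on the model, its range `Fb'` is a `G`-stable subfield,
and the trace trick `dla_export` (part 1) transports to the model: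

* `dlaJ`, `dlaJ_of`, `dlaJ_root`, `dlaJ_act`, `dlaJ_injective`;
* **`dla_model`** : `∃ ρ g : DlyRoot p Zb, n`, `ρ, g ≠ 0`, `z' := zx ρ ^ p` and `g` are fixed by
  `dlyRootAct`, and `u ^ n τ z' = g ^ p z'` for every ring endomorphism `τ` of the model over `FbT`
  with `τ root = ζ root`.
-/
import Fermat.Agent.Lib.Delta.Alg.Trace
import Fermat.Agent.Lib.Delta.Cover.Descent

set_option autoImplicit false
set_option linter.unusedSectionVars false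
set_option linter.unusedVariables false
set_option linter.style.haveILetI false

namespace Fermat.Agent.Delta

open Polynomial

section Model

variable {G Ω FbT : Type*} [Group G] [Field Ω] [MulSemiringAction G Ω] [Field FbT]
  (ι₀ : FbT →+* Ω) (gAct : G → FbT →+* FbT)
  (p : ℕ) (Zb : FbT) (yΩ : Ω) (hy : yΩ ^ p = ι₀ Zb)

/-- the embedding of the model of the cover into `Ω` -/
noncomputable def dlaJ : DlyRoot p Zb →+* Ω :=
  AdjoinRoot.lift ι₀ yΩ (by rw [eval₂_sub, eval₂_pow, eval₂_X, eval₂_C, hy, sub_self])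

theorem dlaJ_mk (T : FbT[X]) : dlaJ ι₀ p Zb yΩ hy (AdjoinRoot.mk _ T) = T.eval₂ ι₀ yΩ :=
  AdjoinRoot.lift_mk _ T

theorem dlaJ_of (f : FbT) : dlaJ ι₀ p Zb yΩ hy (algebraMap FbT (DlyRoot p Zb) f) = ι₀ f := by
  rw [AdjoinRoot.algebraMap_eq]
  exact AdjoinRoot.lift_of _

theorem dlaJ_root : dlaJ ι₀ p Zb yΩ hy (AdjoinRoot.root _) = yΩ := AdjoinRoot.lift_root _

variable (hgAct : ∀ (σ : G) (f : FbT), ι₀ (gAct σ f) = σ • ι₀ f) (hZfix : ∀ σ : G, gAct σ Zb = Zb)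
  (hyfix : ∀ σ : G, σ • yΩ = yΩ)

include hgAct hyfix in
/-- `j` is equivariant -/
theorem dlaJ_act (σ : G) (r : DlyRoot p Zb) :
    dlaJ ι₀ p Zb yΩ hy (dlyRootAct p (gAct σ) Zb (hZfix σ) r) = σ • dlaJ ι₀ p Zb yΩ hy r := by
  obtain ⟨T, rfl⟩ := AdjoinRoot.mk_surjective r
  rw [dlyRootAct_mk, dlaJ_mk, dlaJ_mk, eval₂_map]
  have h1 : σ • T.eval₂ ι₀ yΩ = (MulSemiringAction.toRingHom G Ω σ) (T.eval₂ ι₀ yΩ) := rfl
  rw [h1, hom_eval₂]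
  have h2 : (MulSemiringAction.toRingHom G Ω σ) yΩ = yΩ := hyfix σ
  rw [h2]
  congr 1
  ext f
  exact hgAct σ f

end Model

section Ext

/-- ring homomorphisms out of `AdjoinRoot` are determined by the coefficients and the root -/
theorem dla_adjoinRoot_ringHom_ext {R S : Type*} [CommRing R] [Semiring S] {f : R[X]}
    {φ ψ : AdjoinRoot f →+* S} (h1 : ∀ a : R, φ (AdjoinRoot.of f a) = ψ (AdjoinRoot.of f a))
    (h2 : φ (AdjoinRoot.root f) = ψ (AdjoinRoot.root f)) : φ = ψ := by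
  apply Ideal.Quotient.ringHom_ext
  apply Polynomial.ringHom_ext
  · intro a
    exact h1 a
  · exact h2

end Ext

section Export

variable {G Ω FbT : Type*} [Group G] [Field Ω] [CharZero Ω] [MulSemiringAction G Ω] [Field FbT]
  (ι₀ : FbT →+* Ω) (gAct : G → FbT →+* FbT)
  (hgAct : ∀ (σ : G) (f : FbT), ι₀ (gAct σ f) = σ • ι₀ f)
  {p : ℕ} (hp : p.Prime) (Zb : FbT) [hirr : Fact (Irreducible (X ^ p - C Zb : FbT[X]))]
  (hZfix : ∀ σ : G, gAct σ Zb = Zb)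
  (yΩ : Ω) (hy : yΩ ^ p = ι₀ Zb) (hyfix : ∀ σ : G, σ • yΩ = yΩ)
  (ζb : FbT) (hζ : IsPrimitiveRoot ζb p) (hζfix : ∀ σ : G, gAct σ ζb = ζb)
  (Cst : Subfield Ω) (hCF : ∀ c ∈ Cst, ∃ f : FbT, ι₀ f = c)
  (hGC : ∀ (σ : G) (c : Ω), c ∈ Cst → σ • c ∈ Cst)
  (hroot : ∀ t : Ω, t ^ p ∈ Cst → t ∈ Cst)

include hZfix hζfix in
/-- `τ` commutes with the action on the model -/
theorem dla_tau_act (τ : DlyRoot p Zb →+* DlyRoot p Zb)
    (hτof : ∀ f : FbT, τ (algebraMap FbT (DlyRoot p Zb) f) = algebraMap FbT (DlyRoot p Zb) f)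
    (hτroot : τ (AdjoinRoot.root _) = algebraMap FbT (DlyRoot p Zb) ζb * AdjoinRoot.root _)
    (σ : G) (r : DlyRoot p Zb) :
    τ (dlyRootAct p (gAct σ) Zb (hZfix σ) r) = dlyRootAct p (gAct σ) Zb (hZfix σ) (τ r) := by
  have h : τ.comp (dlyRootAct p (gAct σ) Zb (hZfix σ)) =
      (dlyRootAct p (gAct σ) Zb (hZfix σ)).comp τ := by
    apply dla_adjoinRoot_ringHom_ext
    · intro a
      show τ (dlyRootAct p (gAct σ) Zb (hZfix σ) (algebraMap FbT (DlyRoot p Zb) a)) =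
        dlyRootAct p (gAct σ) Zb (hZfix σ) (τ (algebraMap FbT (DlyRoot p Zb) a))
      rw [dlyRootAct_algebraMap, hτof, hτof, dlyRootAct_algebraMap]
    · show τ (dlyRootAct p (gAct σ) Zb (hZfix σ) (AdjoinRoot.root _)) =
        dlyRootAct p (gAct σ) Zb (hZfix σ) (τ (AdjoinRoot.root _))
      rw [dlyRootAct_root, hτroot, map_mul, dlyRootAct_algebraMap, dlyRootAct_root, hζfix]
  exact RingHom.congr_fun h r

include hgAct hp hZfix hy hyfix hζ hζfix hCF hGC hroot in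
/-- **the export of I3 on the model of the cover** -/
theorem dla_model (zx : FbT) (s : Ω) (hs : s ^ p = ι₀ zx) (hs0 : s ≠ 0)
    (N : Subgroup G) [N.FiniteIndex] (hN : ∀ ν ∈ N, ν • s = s)
    (ℓ : Ω →+ Ω) (hℓG : ∀ (σ : G) (f : Ω), ℓ (σ • f) = σ • ℓ f)
    (hℓC : ∀ c ∈ Cst, ∀ f : Ω, ℓ (c * f) = c * ℓ f) (hℓs : ℓ s ∈ Cst) (hℓs0 : ℓ s ≠ 0)
    (a : G → ℕ)
    (hcoc : ∀ σ : G, ∃ κ ∈ Cst, ∃ g : FbT,
      σ • ι₀ zx = κ * (yΩ ^ a σ * ι₀ g) ^ p * ι₀ zx)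
    (w : Ω) (ub : FbT) (huC : ι₀ ub ∈ Cst) (hw : w ^ p = ι₀ ub) (hu0 : ub ≠ 0)
    (huG : ∀ σ : G, gAct σ ub = ub)
    (hpeu : ∀ σ : G, σ • w = w → ζb ^ a σ = 1)
    (τ : DlyRoot p Zb →+* DlyRoot p Zb)
    (hτof : ∀ f : FbT, τ (algebraMap FbT (DlyRoot p Zb) f) = algebraMap FbT (DlyRoot p Zb) f)
    (hτroot : τ (AdjoinRoot.root _) = algebraMap FbT (DlyRoot p Zb) ζb * AdjoinRoot.root _) :
    ∃ (ρ g : DlyRoot p Zb) (n : ℕ), ρ ≠ 0 ∧ g ≠ 0 ∧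
      (∀ σ : G, dlyRootAct p (gAct σ) Zb (hZfix σ) (algebraMap FbT (DlyRoot p Zb) zx * ρ ^ p) =
        algebraMap FbT (DlyRoot p Zb) zx * ρ ^ p) ∧
      (∀ σ : G, dlyRootAct p (gAct σ) Zb (hZfix σ) g = g) ∧
      algebraMap FbT (DlyRoot p Zb) ub ^ n * τ (algebraMap FbT (DlyRoot p Zb) zx * ρ ^ p) =
        g ^ p * (algebraMap FbT (DlyRoot p Zb) zx * ρ ^ p) := by
  classical
  set j : DlyRoot p Zb →+* Ω := dlaJ ι₀ p Zb yΩ hy with hj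
  have hjinj : Function.Injective j := j.injective
  have hjact : ∀ (σ : G) (r : DlyRoot p Zb),
      j (dlyRootAct p (gAct σ) Zb (hZfix σ) r) = σ • j r :=
    fun σ r => dlaJ_act ι₀ gAct p Zb yΩ hy hgAct hZfix hyfix σ r
  have hjof : ∀ f : FbT, j (algebraMap FbT (DlyRoot p Zb) f) = ι₀ f :=
    fun f => dlaJ_of ι₀ p Zb yΩ hy f
  have hjroot : j (AdjoinRoot.root _) = yΩ := dlaJ_root ι₀ p Zb yΩ hy
  set Fb : Subfield Ω := ι₀.fieldRange with hFb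
  set Fb' : Subfield Ω := j.fieldRange with hFb'
  set e : DlyRoot p Zb ≃+* ↥Fb' := j.rangeRestrictFieldEquiv with he
  have hecoe : ∀ r : DlyRoot p Zb, ((e r : ↥Fb') : Ω) = j r := fun r => rfl
  have hCF' : Cst ≤ Fb := by
    intro c hc
    obtain ⟨f, hf⟩ := hCF c hc
    exact ⟨f, hf⟩
  have hle : Fb ≤ Fb' := by
    rintro x ⟨f, rfl⟩
    exact ⟨algebraMap FbT (DlyRoot p Zb) f, hjof f⟩
  have hG' : ∀ (σ : G) (f : Ω), f ∈ Fb' → σ • f ∈ Fb' := by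
    rintro σ f ⟨r, rfl⟩
    exact ⟨_, hjact σ r⟩
  set τ' : ↥Fb' →+* ↥Fb' :=
    (e : DlyRoot p Zb →+* ↥Fb').comp (τ.comp (e.symm : ↥Fb' →+* DlyRoot p Zb)) with hτ'
  have hτ'e : ∀ r : DlyRoot p Zb, τ' (e r) = e (τ r) := by
    intro r
    show e (τ (e.symm (e r))) = e (τ r)
    rw [e.symm_apply_apply]
  have hτfix : ∀ f : ↥Fb', (f : Ω) ∈ Fb → τ' f = f := by
    rintro f ⟨f₀, hf₀⟩
    have h1 : f = e (algebraMap FbT (DlyRoot p Zb) f₀) := by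
      apply Subtype.ext
      rw [hecoe, hjof, hf₀]
    rw [h1, hτ'e, hτof]
  have hτσ : ∀ (σ : G) (f : ↥Fb'),
      ((τ' ⟨σ • (f : Ω), hG' σ f f.2⟩ : ↥Fb') : Ω) = σ • ((τ' f : ↥Fb') : Ω) := by
    intro σ f
    obtain ⟨r, rfl⟩ := e.surjective f
    have h1 : (⟨σ • ((e r : ↥Fb') : Ω), hG' σ _ (e r).2⟩ : ↥Fb') =
        e (dlyRootAct p (gAct σ) Zb (hZfix σ) r) := by
      apply Subtype.ext
      show σ • ((e r : ↥Fb') : Ω) = _
      rw [hecoe, hecoe, hjact]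
    rw [h1, hτ'e, hτ'e, hecoe, hecoe,
      dla_tau_act gAct Zb hZfix ζb hζfix τ hτof hτroot σ r, hjact]
  have hζΩ : IsPrimitiveRoot (ι₀ ζb) p := hζ.map_of_injective ι₀.injective
  have hζF : ι₀ ζb ∈ Fb := ⟨ζb, rfl⟩
  have hζG : ∀ σ : G, σ • ι₀ ζb = ι₀ ζb := fun σ => by rw [← hgAct, hζfix]
  set y' : ↥Fb' := e (AdjoinRoot.root _) with hy'
  have hy'coe : ((y' : ↥Fb') : Ω) = yΩ := by rw [hy', hecoe, hjroot]
  have hτy : τ' y' = ⟨ι₀ ζb, hle hζF⟩ * y' := by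
    rw [hy', hτ'e, hτroot, map_mul]
    congr 1
    apply Subtype.ext
    rw [hecoe, hjof]
  have hzxF : ι₀ zx ∈ Fb := ⟨zx, rfl⟩
  have hcoc' : ∀ σ : G, ∃ κ ∈ Cst, ∃ g ∈ Fb,
      σ • ι₀ zx = κ * (((y' : ↥Fb') : Ω) ^ a σ * g) ^ p * ι₀ zx := by
    intro σ
    obtain ⟨κ, hκ, g, hg⟩ := hcoc σ
    exact ⟨κ, hκ, ι₀ g, ⟨g, rfl⟩, by rw [hy'coe]; exact hg⟩
  have hu0Ω : ι₀ ub ≠ 0 := (map_ne_zero ι₀).mpr hu0
  have huGΩ : ∀ σ : G, σ • ι₀ ub = ι₀ ub := fun σ => by rw [← hgAct, huG]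
  have hpeu' : ∀ σ : G, σ • w = w → ι₀ ζb ^ a σ = 1 := by
    intro σ hσ
    rw [← map_pow, hpeu σ hσ, map_one]
  obtain ⟨ρ, g, n, hρ0, hg0, hfix, hgfix, hrel⟩ :=
    dla_export Cst Fb Fb' hCF' hle hGC hG' τ' hτfix hτσ hp (ι₀ ζb) hζΩ hζF hζG y' hτy hroot
      (ι₀ zx) s hzxF hs hs0 N hN ℓ hℓG hℓC hℓs hℓs0 a hcoc' w (ι₀ ub) huC hw hu0Ω huGΩ hpeu'
  have hezx : e (algebraMap FbT (DlyRoot p Zb) zx) = ⟨ι₀ zx, hle hzxF⟩ := by
    apply Subtype.ext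
    rw [hecoe, hjof]
  have heub : e (algebraMap FbT (DlyRoot p Zb) ub) = ⟨ι₀ ub, hle (hCF' huC)⟩ := by
    apply Subtype.ext
    rw [hecoe, hjof]
  have hjρ : j (e.symm ρ) = (ρ : Ω) := by
    rw [← hecoe, e.apply_symm_apply]
  have hjg : j (e.symm g) = (g : Ω) := by
    rw [← hecoe, e.apply_symm_apply]
  refine ⟨e.symm ρ, e.symm g, n, ?_, ?_, ?_, ?_, ?_⟩
  · exact (map_ne_zero (e.symm : ↥Fb' →+* DlyRoot p Zb)).mpr hρ0
  · exact (map_ne_zero (e.symm : ↥Fb' →+* DlyRoot p Zb)).mpr hg0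
  · intro σ
    apply hjinj
    rw [hjact, map_mul, map_pow, hjof, hjρ]
    exact hfix σ
  · intro σ
    apply hjinj
    rw [hjact, hjg]
    exact hgfix σ
  · apply e.injective
    have hz : e (algebraMap FbT (DlyRoot p Zb) zx * e.symm ρ ^ p) =
        ⟨ι₀ zx, hle hzxF⟩ * ρ ^ p := by
      rw [map_mul, map_pow, hezx, e.apply_symm_apply]
    have hL : e (algebraMap FbT (DlyRoot p Zb) ub ^ n *
        τ (algebraMap FbT (DlyRoot p Zb) zx * e.symm ρ ^ p)) =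
        ⟨ι₀ ub, hle (hCF' huC)⟩ ^ n * τ' (⟨ι₀ zx, hle hzxF⟩ * ρ ^ p) := by
      rw [map_mul e, map_pow e, heub, ← hτ'e, hz]
    have hR : e (e.symm g ^ p * (algebraMap FbT (DlyRoot p Zb) zx * e.symm ρ ^ p)) =
        g ^ p * (⟨ι₀ zx, hle hzxF⟩ * ρ ^ p) := by
      rw [map_mul e, map_pow e, e.apply_symm_apply, hz]
    rw [hL, hR]
    exact hrel

end Export

end Fermat.Agent.Delta
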