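/-
DELTA / package I3 (helper4), part 2: **the ambient field `Ω = ℚ̄((q))`** of the trace trick:
the coefficientwise action of `Gal(ℚ̄/ℚ)` as a `MulSemiringAction`, constants, `p`-th roots,
leading coefficients, the coefficient functional.
-/
import Mathlib
import Fermat.Agent.Lib.T1.Desc.PowDesc
import Fermat.Prelude.Def_ModularCurve_ArithmeticGalois

set_option autoImplicit false
set_option linter.unusedSectionVars false
set_option linter.unusedVariables false
set_option linter.style.haveILetI false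

namespace Fermat.Agent.Delta

open ModularCurve HahnSeries Fermat.Agent.T1

local notation "Qb" => AlgebraicClosure ℚ
local notation "GQ" => (AlgebraicClosure ℚ ≃ₐ[ℚ] AlgebraicClosure ℚ)
local notation "Ω" => LaurentSeries (AlgebraicClosure ℚ)

/-- the coefficientwise action is `coeffMap` -/
theorem dla_smul_eq_coeffMap (σ : GQ) (f : Ω) : σ • f = coeffMap (σ : Qb →+* Qb) f := by
  ext n
  rfl

/-- **the coefficientwise action of `Gal(ℚ̄/ℚ)` on `ℚ̄((q))` is by ring automorphisms** -/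
@[reducible] noncomputable def dlaOmegaAction : MulSemiringAction GQ Ω :=
  { (inferInstance : DistribMulAction GQ Ω) with
    smul_one := fun σ => by
      rw [dla_smul_eq_coeffMap, map_one]
    smul_mul := fun σ f g => by
      rw [dla_smul_eq_coeffMap, dla_smul_eq_coeffMap, dla_smul_eq_coeffMap, map_mul] }

attribute [local instance] dlaOmegaAction

theorem dla_smul_coeff (σ : GQ) (f : Ω) (n : ℤ) : (σ • f).coeff n = σ (f.coeff n) := rfl

theorem dla_smul_C (σ : GQ) (c : Qb) : σ • (HahnSeries.C c : Ω) = HahnSeries.C (σ c) := by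
  ext n
  rw [dla_smul_coeff, HahnSeries.C_apply, HahnSeries.C_apply, HahnSeries.coeff_single,
    HahnSeries.coeff_single]
  split_ifs
  · rfl
  · exact map_zero _

theorem dla_smul_order (σ : GQ) (f : Ω) : (σ • f).order = f.order := by
  rw [dla_smul_eq_coeffMap]
  exact tdx_order_coeffMap (σ : Qb →+* Qb) f

theorem dla_smul_leadingCoeff (σ : GQ) (f : Ω) : (σ • f).leadingCoeff = σ f.leadingCoeff := by
  rw [HahnSeries.leadingCoeff_eq, HahnSeries.leadingCoeff_eq, dla_smul_order, dla_smul_coeff]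

/-- the constants -/
noncomputable def dlaCst : Subfield Ω := (HahnSeries.C : Qb →+* Ω).fieldRange

theorem mem_dlaCst {f : Ω} : f ∈ dlaCst ↔ ∃ c : Qb, HahnSeries.C c = f := Iff.rfl

theorem dla_smul_mem_cst (σ : GQ) {c : Ω} (hc : c ∈ dlaCst) : σ • c ∈ dlaCst := by
  obtain ⟨a, rfl⟩ := hc
  exact ⟨σ a, (dla_smul_C σ a).symm⟩

/-- **a Laurent series with a constant `p`-th power is constant** -/
theorem dla_root_cst {p : ℕ} (hp : p ≠ 0) (t : Ω) (ht : t ^ p ∈ dlaCst) : t ∈ dlaCst := by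
  obtain ⟨c, hc⟩ := ht
  by_cases hc0 : c = 0
  · rw [hc0, map_zero] at hc
    have : t = 0 := pow_eq_zero_iff hp |>.mp hc.symm
    rw [this]
    exact dlaCst.zero_mem
  obtain ⟨d, hd⟩ := IsAlgClosed.exists_pow_nat_eq c (Nat.pos_of_ne_zero hp)
  have hd0 : d ≠ 0 := by
    rintro rfl
    rw [zero_pow hp] at hd
    exact hc0 hd.symm
  have hCd : (HahnSeries.C d : Ω) ≠ 0 := (map_ne_zero _).mpr hd0
  have h1 : (t / HahnSeries.C d) ^ p = 1 := by
    rw [div_pow, ← hc, ← map_pow, hd, div_self ((map_ne_zero _).mpr hc0)]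
  obtain ⟨a, -, ha⟩ := tdx_pow_eq_one (RingHom.id Qb) p hp (t / HahnSeries.C d) h1
  refine ⟨a * d, ?_⟩
  rw [map_mul]
  rw [RingHom.id_apply] at ha
  rw [← ha]
  field_simp

/-- the coefficient functional `f ↦ C (f.coeff k)` -/
noncomputable def dlaCoeffFn (k : ℤ) : Ω →+ Ω where
  toFun f := HahnSeries.C (f.coeff k)
  map_zero' := by simp
  map_add' f g := by simp

theorem dlaCoeffFn_apply (k : ℤ) (f : Ω) : dlaCoeffFn k f = HahnSeries.C (f.coeff k) := rfl

theorem dlaCoeffFn_smul (k : ℤ) (σ : GQ) (f : Ω) : dlaCoeffFn k (σ • f) = σ • dlaCoeffFn k f := by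
  rw [dlaCoeffFn_apply, dlaCoeffFn_apply, dla_smul_C, dla_smul_coeff]

theorem dlaCoeffFn_cst_mul (k : ℤ) {c : Ω} (hc : c ∈ dlaCst) (f : Ω) :
    dlaCoeffFn k (c * f) = c * dlaCoeffFn k f := by
  obtain ⟨a, rfl⟩ := hc
  rw [dlaCoeffFn_apply, dlaCoeffFn_apply, ← map_mul]
  congr 1
  rw [HahnSeries.C_mul_eq_smul, HahnSeries.coeff_smul, smul_eq_mul]

theorem dlaCoeffFn_mem (k : ℤ) (f : Ω) : dlaCoeffFn k f ∈ dlaCst := ⟨_, rfl⟩

theorem dlaCoeffFn_order_ne_zero {f : Ω} (hf : f ≠ 0) : dlaCoeffFn f.order f ≠ 0 := by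
  rw [dlaCoeffFn_apply]
  exact (map_ne_zero _).mpr (fun h => hf (HahnSeries.coeff_order_eq_zero.mp h))

theorem dla_leadingCoeff_pow (f : Ω) (n : ℕ) : (f ^ n).leadingCoeff = f.leadingCoeff ^ n := by
  induction n with
  | zero => rw [pow_zero, pow_zero, HahnSeries.leadingCoeff_one]
  | succ n ih => rw [pow_succ, pow_succ, HahnSeries.leadingCoeff_mul, ih]

theorem dla_leadingCoeff_C (c : Qb) : (HahnSeries.C c : Ω).leadingCoeff = c := by
  by_cases hc : c = 0
  · rw [hc, map_zero, HahnSeries.leadingCoeff_zero]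
  · rw [HahnSeries.C_apply, HahnSeries.leadingCoeff_of_single]

/-- `p`-th roots with leading coefficient one -/
theorem dla_exists_root {p : ℕ} (hp : p ≠ 0) (Z : Ω) (hZ0 : Z ≠ 0) (hord : (p : ℤ) ∣ Z.order)
    (hlc : Z.leadingCoeff = 1) : ∃ y : Ω, y ^ p = Z ∧ y.leadingCoeff = 1 := by
  obtain ⟨n, hn⟩ := hord
  obtain ⟨y₀, hy₀⟩ := tdx_exists_pow_eq p hp Z hZ0 n hn
  have hy₀0 : y₀ ≠ 0 := by
    rintro rfl
    rw [zero_pow hp] at hy₀
    exact hZ0 hy₀.symm
  have hlc₀ : y₀.leadingCoeff ^ p = 1 := by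
    rw [← dla_leadingCoeff_pow, hy₀, hlc]
  have hl0 : y₀.leadingCoeff ≠ 0 := HahnSeries.leadingCoeff_ne_zero.mpr hy₀0
  refine ⟨HahnSeries.C y₀.leadingCoeff⁻¹ * y₀, ?_, ?_⟩
  · rw [mul_pow, ← map_pow, inv_pow, hlc₀, inv_one, map_one, one_mul, hy₀]
  · rw [HahnSeries.leadingCoeff_mul, dla_leadingCoeff_C, inv_mul_cancel₀ hl0]

/-- a `p`-th root with leading coefficient one of a fixed series is fixed -/
theorem dla_root_fixed {p : ℕ} (hp : p ≠ 0) (σ : GQ) {Z y : Ω} (hy : y ^ p = Z)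
    (hlc : y.leadingCoeff = 1) (hσ : σ • Z = Z) : σ • y = y := by
  have hy0 : y ≠ 0 := by
    rintro rfl
    rw [HahnSeries.leadingCoeff_zero] at hlc
    exact zero_ne_one hlc
  have h1 : (σ • y / y) ^ p = 1 := by
    rw [div_pow, ← smul_pow', hy, hσ, div_self]
    rw [← hy]
    exact pow_ne_zero _ hy0
  obtain ⟨a, -, ha⟩ := tdx_pow_eq_one (RingHom.id Qb) p hp (σ • y / y) h1
  rw [RingHom.id_apply] at ha
  have h2 : σ • y = HahnSeries.C a * y := by
    rw [← ha]
    field_simp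
  have h3 := congrArg HahnSeries.leadingCoeff h2
  rw [dla_smul_leadingCoeff, HahnSeries.leadingCoeff_mul, dla_leadingCoeff_C, hlc, map_one,
    mul_one] at h3
  rw [h2, ← h3, map_one, one_mul]

end Fermat.Agent.Delta
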