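/-
DELTA / package I3 (helper4), part 4: **the instance of the trace trick for `X₀(N)`**
(`Ω = ℚ̄((q))`, `G = H₁ ≤ I_𝔓` a subgroup fixing `ζ_p`, acting coefficientwise).

Input: `Zb ∈ F_{ℚ̄}` (`H₁`-fixed, leading coefficient `1`, `div Zb = p D_l`, class `l₀ ≠ 0`),
`x ∈ J₀(N)[p]` with `σ x - x = a(σ) l₀` for `σ ∈ H₁`, and PEU (`u = w ^ p` an `H₁`-fixed constant,
every `σ ∈ H₁` fixing `w` fixes `x`).

Output (`dla_inst`): a Kummer function `zx` of `x` and `ρ, g` in the model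
`DlyRoot p Zb = F_{ℚ̄}[X] ⧸ (X ^ p - Zb)` of the cover such that `z' = zx ρ ^ p` and `g` are fixed by
`H₁` (acting on the coefficients and fixing the Kummer generator) and `u ^ n τ z' = g ^ p z'`.
-/
import Fermat.Agent.Lib.Delta.Alg.OmegaAct
import Fermat.Agent.Lib.Delta.Alg.Model
import Fermat.Agent.Lib.Delta.Toric.Descent
import Fermat.Agent.Lib.Alpha.Inv.Inf

set_option autoImplicit false
set_option linter.unusedSectionVars false
set_option linter.unusedVariables false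
set_option linter.style.haveILetI false
set_option synthInstance.maxHeartbeats 400000

open HahnSeries ModularCurve AlgebraicCurve Fermat.Agent.T1 Fermat.Agent.T2 Fermat.Agent.TW
  Fermat.Agent.S05Lib Fermat.Agent.Alpha Polynomial

noncomputable section

namespace Fermat.Agent.Delta

local notation "Qb" => AlgebraicClosure ℚ
local notation "GQ" => (AlgebraicClosure ℚ ≃ₐ[ℚ] AlgebraicClosure ℚ)
local notation "Ω" => LaurentSeries (AlgebraicClosure ℚ)

attribute [local instance] dlaOmegaAction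

variable (N : ℕ) [NeZero N]

/-- the inclusion `F_{ℚ̄} → ℚ̄((q))` -/
def dlaIota : ↥(modularFunctionFieldBar N) →+* Ω := (modularFunctionFieldBar N).val.toRingHom

theorem dlaIota_apply (f : ↥(modularFunctionFieldBar N)) : dlaIota N f = (f : Ω) := rfl

theorem dlaIota_algebraMap (c : Qb) :
    dlaIota N (algebraMap Qb ↥(modularFunctionFieldBar N) c) = HahnSeries.C c := by
  show algebraMap Qb (LaurentSeries Qb) c = HahnSeries.C c
  rw [algebraMap_laurentSeries_eq_single, HahnSeries.C_apply]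

theorem dlaIota_arith (σ : GQ) (f : ↥(modularFunctionFieldBar N)) :
    dlaIota N (arithmeticRingAut (modularFunctionFieldFull N) σ f) = σ • dlaIota N f := by
  rw [dla_smul_eq_coeffMap]
  rfl

/-- a function with a non-trivial Kummer class is not a `p`-th power -/
theorem dla_npow_of_class_ne_zero {m : ℕ} (hm : m ≠ 0) (Zb : ↥(modularFunctionFieldBar N))
    (hZ0 : Zb ≠ 0)
    (hZ : ∀ v : Place Qb ↥(modularFunctionFieldBar N), (m : ℤ) ∣ v.ord Zb)
    (hl₀ : alpfClass hm (Units.mk0 Zb hZ0) hZ ≠ 0) (c : ↥(modularFunctionFieldBar N)) :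
    c ^ m ≠ Zb := by
  intro hc
  apply hl₀
  have hc0 : c ≠ 0 := by
    rintro rfl
    rw [zero_pow hm] at hc
    exact hZ0 hc.symm
  have h1 : Units.mk0 Zb hZ0 = (Units.mk0 c hc0) ^ m := by
    apply Units.ext
    rw [Units.val_pow_eq_pow_val, Units.val_mk0, Units.val_mk0, hc]
  rw [dli_class_congr N hm h1 hZ (dli_dvd_pow N _)]
  exact alpfClass_pow hm _ _

/-- natural multiples of Kummer classes -/
theorem dla_class_npow {m : ℕ} (hm : m ≠ 0) (y : (↥(modularFunctionFieldBar N))ˣ)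
    (hy : ∀ v : Place Qb ↥(modularFunctionFieldBar N),
      (m : ℤ) ∣ v.ord (y : ↥(modularFunctionFieldBar N))) (n : ℕ)
    (hyn : ∀ v : Place Qb ↥(modularFunctionFieldBar N),
      (m : ℤ) ∣ v.ord ((y ^ n : (↥(modularFunctionFieldBar N))ˣ) : ↥(modularFunctionFieldBar N))) :
    alpfClass hm (y ^ n) hyn = n • alpfClass hm y hy := by
  induction n with
  | zero =>
    rw [zero_nsmul]
    have h1 : (y ^ 0 : (↥(modularFunctionFieldBar N))ˣ) = (1 : (↥(modularFunctionFieldBar N))ˣ) ^ m := by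
      rw [pow_zero, one_pow]
    rw [dli_class_congr N hm h1 hyn (dli_dvd_pow N _)]
    exact alpfClass_pow hm _ _
  | succ n ih =>
    have hyn' : ∀ v : Place Qb ↥(modularFunctionFieldBar N),
        (m : ℤ) ∣ v.ord ((y ^ n : (↥(modularFunctionFieldBar N))ˣ) :
          ↥(modularFunctionFieldBar N)) := by
      intro v
      rw [Units.val_pow_eq_pow_val, ← zpow_natCast, v.ord_zpow]
      exact Dvd.dvd.mul_left (hy v) _
    have h1 : y ^ (n + 1) = y ^ n * y := pow_succ y n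
    rw [dli_class_congr N hm h1 hyn (dli_dvd_mul N hyn' hy),
      alpfClass_mul hm (y ^ n) y hyn' hy, ih hyn', succ_nsmul]

section Inst

variable (𝔓 : FFPlace) (H₁ : Subgroup 𝔓.I)

/-- the coefficientwise action of `H₁` on the function field, as ring homomorphisms -/
def dlaAct (σ : ↥H₁) : ↥(modularFunctionFieldBar N) →+* ↥(modularFunctionFieldBar N) :=
  (dliRho N 𝔓 H₁ σ : ↥(modularFunctionFieldBar N) ≃+* ↥(modularFunctionFieldBar N)).toRingHom

theorem dlaAct_apply (σ : ↥H₁) (f : ↥(modularFunctionFieldBar N)) :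
    dlaAct N 𝔓 H₁ σ f =
      arithmeticRingAut (modularFunctionFieldFull N) (((σ : ↥H₁) : 𝔓.I) : GQ) f := rfl

theorem dlaIota_act (σ : ↥H₁) (f : ↥(modularFunctionFieldBar N)) :
    dlaIota N (dlaAct N 𝔓 H₁ σ f) = σ • dlaIota N f :=
  dlaIota_arith N _ f

theorem dlaAct_algebraMap (σ : ↥H₁) (c : Qb) :
    dlaAct N 𝔓 H₁ σ (algebraMap Qb ↥(modularFunctionFieldBar N) c) =
      algebraMap Qb ↥(modularFunctionFieldBar N) ((((σ : ↥H₁) : 𝔓.I) : GQ) c) := by
  rw [dlaAct_apply, arithmeticRingAut_algebraMap]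

/-- **the instance of the trace trick for `X₀(N)` over `ℚ̄`, on the model of the cover** -/
theorem dla_inst {p : ℕ} (hp : p.Prime)
    (ζ : Qb) (hζ : IsPrimitiveRoot ζ p) (hζfix : ∀ σ : ↥H₁, (((σ : ↥H₁) : 𝔓.I) : GQ) ζ = ζ)
    (Zb : ↥(modularFunctionFieldBar N)) (hZ0 : Zb ≠ 0)
    (hZ : ∀ v : Place Qb ↥(modularFunctionFieldBar N), (p : ℤ) ∣ v.ord Zb)
    (hZfix : ∀ σ : ↥H₁, dlaAct N 𝔓 H₁ σ Zb = Zb)
    (hlc : dliLc N Zb = 1)
    (hl₀ : alpfClass hp.ne_zero (Units.mk0 Zb hZ0) hZ ≠ 0)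
    (x : JZero N) (hx : (p : ℤ) • x = 0)
    (a : ↥H₁ → ℕ)
    (ha : ∀ σ : ↥H₁, (((σ : ↥H₁) : 𝔓.I) : GQ) • x - x =
      a σ • alpfClass hp.ne_zero (Units.mk0 Zb hZ0) hZ)
    (u w : Qb) (hw : w ^ p = u) (hu0 : u ≠ 0)
    (huG : ∀ σ : ↥H₁, (((σ : ↥H₁) : 𝔓.I) : GQ) u = u)
    (hpeu : ∀ σ : ↥H₁, (((σ : ↥H₁) : 𝔓.I) : GQ) w = w → (((σ : ↥H₁) : 𝔓.I) : GQ) • x = x)
    (τ : DlyRoot p Zb →+* DlyRoot p Zb)
    (hτof : ∀ f : ↥(modularFunctionFieldBar N),
      τ (algebraMap ↥(modularFunctionFieldBar N) (DlyRoot p Zb) f) =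
        algebraMap ↥(modularFunctionFieldBar N) (DlyRoot p Zb) f)
    (hτroot : τ (AdjoinRoot.root _) =
      algebraMap ↥(modularFunctionFieldBar N) (DlyRoot p Zb)
        (algebraMap Qb ↥(modularFunctionFieldBar N) ζ) * AdjoinRoot.root _) :
    ∃ (zx : (↥(modularFunctionFieldBar N))ˣ)
      (hzx : ∀ v : Place Qb ↥(modularFunctionFieldBar N),
        (p : ℤ) ∣ v.ord (zx : ↥(modularFunctionFieldBar N))),
      alpfClass hp.ne_zero zx hzx = x ∧
      ∃ (ρ g : DlyRoot p Zb) (n : ℕ), ρ ≠ 0 ∧ g ≠ 0 ∧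
        (∀ σ : ↥H₁, dlyRootAct p (dlaAct N 𝔓 H₁ σ) Zb (hZfix σ)
          (algebraMap ↥(modularFunctionFieldBar N) (DlyRoot p Zb) zx * ρ ^ p) =
          algebraMap ↥(modularFunctionFieldBar N) (DlyRoot p Zb) zx * ρ ^ p) ∧
        (∀ σ : ↥H₁, dlyRootAct p (dlaAct N 𝔓 H₁ σ) Zb (hZfix σ) g = g) ∧
        algebraMap ↥(modularFunctionFieldBar N) (DlyRoot p Zb)
            (algebraMap Qb ↥(modularFunctionFieldBar N) u) ^ n *
          τ (algebraMap ↥(modularFunctionFieldBar N) (DlyRoot p Zb) zx * ρ ^ p) =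
          g ^ p * (algebraMap ↥(modularFunctionFieldBar N) (DlyRoot p Zb) zx * ρ ^ p) := by
  classical
  have hp0 : p ≠ 0 := hp.ne_zero
  haveI hirr : Fact (Irreducible (X ^ p - Polynomial.C Zb : (↥(modularFunctionFieldBar N))[X])) :=
    ⟨dly_irreducible_of_npow hp (dla_npow_of_class_ne_zero N hp0 Zb hZ0 hZ hl₀)⟩
  set l₀ := alpfClass hp0 (Units.mk0 Zb hZ0) hZ with hl₀def
  -- a Kummer function of `x` with leading coefficient one
  obtain ⟨y₀, hy₀, hcl₀⟩ := alpf_exists_class hp0 x hx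
  obtain ⟨c₁, hc₁⟩ := IsAlgClosed.exists_pow_nat_eq
    (dliLc N (y₀ : ↥(modularFunctionFieldBar N)))⁻¹ (Nat.pos_of_ne_zero hp0)
  have hlcy₀ : dliLc N (y₀ : ↥(modularFunctionFieldBar N)) ≠ 0 := dliLc_ne_zero N y₀.ne_zero
  have hc₁0 : c₁ ≠ 0 := by
    rintro rfl
    rw [zero_pow hp0] at hc₁
    exact inv_ne_zero hlcy₀ hc₁.symm
  set C₁ : (↥(modularFunctionFieldBar N))ˣ :=
    Units.mk0 (algebraMap Qb ↥(modularFunctionFieldBar N) c₁) ((_root_.map_ne_zero _).mpr hc₁0) with hC₁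
  set zx : (↥(modularFunctionFieldBar N))ˣ := y₀ * C₁ ^ p with hzxdef
  have hzx : ∀ v : Place Qb ↥(modularFunctionFieldBar N),
      (p : ℤ) ∣ v.ord (zx : ↥(modularFunctionFieldBar N)) :=
    dli_dvd_mul N hy₀ (dli_dvd_pow N C₁)
  have hcl : alpfClass hp0 zx hzx = x := by
    rw [← hcl₀]
    exact dli_class_mul_pow N hp0 y₀ C₁ hy₀
  have hlczx : dliLc N (zx : ↥(modularFunctionFieldBar N)) = 1 := by
    rw [hzxdef, Units.val_mul, Units.val_pow_eq_pow_val, dliLc_mul, dliLc_pow, hC₁, Units.val_mk0,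
      dliLc_algebraMap, hc₁, mul_inv_cancel₀ hlcy₀]
  refine ⟨zx, hzx, hcl, ?_⟩
  -- the roots in `Ω`
  have hzxΩ0 : dlaIota N (zx : ↥(modularFunctionFieldBar N)) ≠ 0 :=
    (_root_.map_ne_zero (dlaIota N)).mpr zx.ne_zero
  have hordzx : (p : ℤ) ∣ (dlaIota N (zx : ↥(modularFunctionFieldBar N))).order := by
    have := hzx (alpiInf N)
    rwa [alpiInf_ord] at this
  obtain ⟨s, hs, hslc⟩ := dla_exists_root hp0 (dlaIota N (zx : ↥(modularFunctionFieldBar N)))
    hzxΩ0 hordzx hlczx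
  have hs0 : s ≠ 0 := by
    rintro rfl
    rw [zero_pow hp0] at hs
    exact hzxΩ0 hs.symm
  have hZΩ0 : dlaIota N Zb ≠ 0 := (_root_.map_ne_zero (dlaIota N)).mpr hZ0
  have hordZ : (p : ℤ) ∣ (dlaIota N Zb).order := by
    have := hZ (alpiInf N)
    rwa [alpiInf_ord] at this
  obtain ⟨yΩ, hy, hylc⟩ := dla_exists_root hp0 (dlaIota N Zb) hZΩ0 hordZ hlc
  have hyfix : ∀ σ : ↥H₁, σ • yΩ = yΩ := by
    intro σ
    refine dla_root_fixed hp0 (((σ : ↥H₁) : 𝔓.I) : GQ) hy hylc ?_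
    have := dlaIota_act N 𝔓 H₁ σ Zb
    rw [hZfix σ] at this
    exact this.symm
  -- the stabiliser of `s`
  obtain ⟨N₀, L, hN₀n, hN₀f, -, hN₀zx⟩ := dli_exists_normal_fixing N 𝔓 H₁
    (zx : ↥(modularFunctionFieldBar N))
  haveI := hN₀f
  have hN₀s : ∀ ν ∈ N₀, ν • s = s := by
    intro ν hν
    refine dla_root_fixed hp0 (((ν : ↥H₁) : 𝔓.I) : GQ) hs hslc ?_
    have h1 := dlaIota_act N 𝔓 H₁ ν (zx : ↥(modularFunctionFieldBar N))
    have h2 : dlaAct N 𝔓 H₁ ν (zx : ↥(modularFunctionFieldBar N)) =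
        (zx : ↥(modularFunctionFieldBar N)) := hN₀zx ν hν
    rw [h2] at h1
    exact h1.symm
  -- the cocycle
  have hcoc : ∀ σ : ↥H₁, ∃ κ ∈ dlaCst, ∃ g : ↥(modularFunctionFieldBar N),
      σ • dlaIota N (zx : ↥(modularFunctionFieldBar N)) =
        κ * (yΩ ^ a σ * dlaIota N g) ^ p * dlaIota N (zx : ↥(modularFunctionFieldBar N)) := by
    intro σ
    have h1 : (((σ : ↥H₁) : 𝔓.I) : GQ) • alpfClass hp0 zx hzx =
        alpfClass hp0 zx hzx + a σ • l₀ := by
      have := ha σ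
      rw [← hcl] at this
      rw [← this]
      abel
    rw [galois_smul_pic0_def, alpfClass_smul hp0] at h1
    have hZu : ∀ v : Place Qb ↥(modularFunctionFieldBar N),
        (p : ℤ) ∣ v.ord (((Units.mk0 Zb hZ0) ^ a σ : (↥(modularFunctionFieldBar N))ˣ) :
          ↥(modularFunctionFieldBar N)) := by
      intro v
      rw [Units.val_pow_eq_pow_val, ← zpow_natCast, v.ord_zpow]
      exact Dvd.dvd.mul_left (hZ v) _
    have h2 : alpfClass hp0 zx hzx + a σ • l₀ =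
        alpfClass hp0 (zx * (Units.mk0 Zb hZ0) ^ a σ) (dli_dvd_mul N hzx hZu) := by
      rw [alpfClass_mul hp0 zx _ hzx hZu, dla_class_npow N hp0 (Units.mk0 Zb hZ0) hZ (a σ) hZu]
    rw [h2] at h1
    obtain ⟨t, ht⟩ := dli_exists_pow_of_class_eq N hp0 _ _ (dli_dvd_mul N hzx hZu) _ h1
    refine ⟨1, dlaCst.one_mem, (t : ↥(modularFunctionFieldBar N)), ?_⟩
    have h3 := congrArg (fun u : (↥(modularFunctionFieldBar N))ˣ =>
      dlaIota N (u : ↥(modularFunctionFieldBar N))) ht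
    simp only [Units.val_mul, Units.val_pow_eq_pow_val, Units.val_mk0, map_mul, map_pow] at h3
    have h4 : dlaIota N ((alpfSmulUnit (arithmeticGalois (modularFunctionFieldFull N)
        (((σ : ↥H₁) : 𝔓.I) : GQ)) zx : (↥(modularFunctionFieldBar N))ˣ) :
          ↥(modularFunctionFieldBar N)) =
        σ • dlaIota N (zx : ↥(modularFunctionFieldBar N)) :=
      dlaIota_arith N _ _
    rw [← h4, h3, ← hy]
    ring
  -- PEU
  have hpeu' : ∀ σ : ↥H₁, σ • (HahnSeries.C w : Ω) = HahnSeries.C w →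
      algebraMap Qb ↥(modularFunctionFieldBar N) ζ ^ a σ = 1 := by
    intro σ hσ
    have h1 : (((σ : ↥H₁) : 𝔓.I) : GQ) w = w := by
      have h2 : σ • (HahnSeries.C w : Ω) = HahnSeries.C ((((σ : ↥H₁) : 𝔓.I) : GQ) w) :=
        dla_smul_C _ w
      rw [h2] at hσ
      exact HahnSeries.C_injective hσ
    have h3 := hpeu σ h1
    have h4 : a σ • l₀ = 0 := by
      rw [← ha σ, h3, sub_self]
    have hpl₀ : p • l₀ = 0 := by
      have hZp : ∀ v : Place Qb ↥(modularFunctionFieldBar N),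
          (p : ℤ) ∣ v.ord (((Units.mk0 Zb hZ0) ^ p : (↥(modularFunctionFieldBar N))ˣ) :
            ↥(modularFunctionFieldBar N)) := dli_dvd_pow N _
      rw [hl₀def, ← dla_class_npow N hp0 (Units.mk0 Zb hZ0) hZ p hZp]
      exact alpfClass_pow hp0 _ _
    have h5 : p ∣ a σ := by
      have h6 : addOrderOf l₀ = p := by
        have h7 : addOrderOf l₀ ∣ p := addOrderOf_dvd_of_nsmul_eq_zero hpl₀
        rcases (Nat.dvd_prime hp).mp h7 with h8 | h8
        · exact absurd (AddMonoid.addOrderOf_eq_one_iff.mp h8) hl₀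
        · exact h8
      rw [← h6]
      exact addOrderOf_dvd_of_nsmul_eq_zero h4
    obtain ⟨k, hk⟩ := h5
    rw [hk, pow_mul, ← map_pow, hζ.pow_eq_one, map_one, one_pow]
  haveI : CharZero Ω := charZero_of_injective_algebraMap (algebraMap Qb Ω).injective
  have hζb : IsPrimitiveRoot (algebraMap Qb ↥(modularFunctionFieldBar N) ζ) p :=
    hζ.map_of_injective (algebraMap Qb ↥(modularFunctionFieldBar N)).injective
  exact dla_model (dlaIota N) (dlaAct N 𝔓 H₁) (dlaIota_act N 𝔓 H₁) hp Zb hZfix yΩ hy hyfix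
    (algebraMap Qb ↥(modularFunctionFieldBar N) ζ) hζb
    (fun σ => by rw [dlaAct_algebraMap, hζfix σ])
    dlaCst
    (fun c hc => by
      obtain ⟨b, rfl⟩ := hc
      exact ⟨algebraMap Qb ↥(modularFunctionFieldBar N) b, dlaIota_algebraMap N b⟩)
    (fun σ c hc => dla_smul_mem_cst _ hc)
    (fun t ht => dla_root_cst hp0 t ht)
    (zx : ↥(modularFunctionFieldBar N)) s hs hs0 N₀ hN₀s (dlaCoeffFn s.order)
    (fun σ f => dlaCoeffFn_smul s.order _ f)
    (fun c hc f => dlaCoeffFn_cst_mul s.order hc f)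
    (dlaCoeffFn_mem s.order s) (dlaCoeffFn_order_ne_zero hs0) a hcoc
    (HahnSeries.C w) (algebraMap Qb ↥(modularFunctionFieldBar N) u)
    (by rw [dlaIota_algebraMap]; exact ⟨u, rfl⟩)
    (by rw [dlaIota_algebraMap, ← map_pow, hw])
    ((_root_.map_ne_zero _).mpr hu0)
    (fun σ => by rw [dlaAct_algebraMap, huG σ])
    hpeu' τ hτof hτroot

end Inst

end Fermat.Agent.Delta
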