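/-
DELTA / package I3 (helper4), part 5: **levels**.

* `dlaLevInc 𝔓 N (h : H₂ ≤ H₁) : F_{H₁} →+* F_{H₂}` — the inclusion of the function fields of
  `X₀(N)` over `L_{H₁} ⊆ L_{H₂}` (coefficientwise), with `tbPhiF_dlaLevInc`
  (`Φ_{H₂} ∘ ι = Φ_{H₁}`), `dlaLevInc_algebraMap`, `coe_dlaLevInc`;
* `dlaRootMap φ Z Z₂ (h : φ Z = Z₂) : DlyRoot p Z →+* DlyRoot p Z₂` — base change of the model of
  the cyclic cover with a propositional equation for the Kummer function, `dlaRootMap_comp`.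
-/
import Fermat.Agent.Lib.Delta.Alg.Inst
import Fermat.Agent.Lib.T4.Inst.CycLevel
import Fermat.Agent.Lib.T2.Gal.Sigma

set_option autoImplicit false
set_option linter.unusedSectionVars false
set_option linter.unusedVariables false
set_option linter.style.haveILetI false
set_option synthInstance.maxHeartbeats 400000

open HahnSeries ModularCurve AlgebraicCurve Fermat.Agent.T1 Fermat.Agent.T2 Fermat.Agent.TW
  Fermat.Agent.S05Lib Fermat.Agent.Alpha Polynomial Fermat.Agent.T4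

noncomputable section

namespace Fermat.Agent.Delta

local notation "Qb" => AlgebraicClosure ℚ
local notation "GQ" => (AlgebraicClosure ℚ ≃ₐ[ℚ] AlgebraicClosure ℚ)
local notation "Ω" => LaurentSeries (AlgebraicClosure ℚ)

section LevInc

variable (𝔓 : FFPlace) (N : ℕ) [NeZero N] {H₁ H₂ : Subgroup 𝔓.I}

theorem dla_levInc_mem (h : H₂ ≤ H₁) {f : LaurentSeries ↥(tbFix 𝔓 H₁)}
    (hf : f ∈ tbLevF 𝔓 N H₁) :
    coeffMap ((t4cyInc 𝔓 h : ↥(tbFix 𝔓 H₁) →ₐ[ℚ] ↥(tbFix 𝔓 H₂)) : ↥(tbFix 𝔓 H₁) →+* ↥(tbFix 𝔓 H₂)) f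
      ∈ tbLevF 𝔓 N H₂ :=
  tdx_coeffMap_mem (modularFunctionFieldFull N) _ hf

/-- the inclusion `F_{H₁} → F_{H₂}` of the function fields of `X₀(N)` for `H₂ ≤ H₁` -/
def dlaLevInc (h : H₂ ≤ H₁) : ↥(tbLevF 𝔓 N H₁) →+* ↥(tbLevF 𝔓 N H₂) :=
  ((coeffMap ((t4cyInc 𝔓 h : ↥(tbFix 𝔓 H₁) →ₐ[ℚ] ↥(tbFix 𝔓 H₂)) :
      ↥(tbFix 𝔓 H₁) →+* ↥(tbFix 𝔓 H₂))).comp (tbLevF 𝔓 N H₁).val.toRingHom).codRestrict
    (tbLevF 𝔓 N H₂).toSubring (fun f => dla_levInc_mem 𝔓 N h f.2)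

theorem coe_dlaLevInc (h : H₂ ≤ H₁) (f : ↥(tbLevF 𝔓 N H₁)) :
    ((dlaLevInc 𝔓 N h f : ↥(tbLevF 𝔓 N H₂)) : LaurentSeries ↥(tbFix 𝔓 H₂)) =
      coeffMap ((t4cyInc 𝔓 h : ↥(tbFix 𝔓 H₁) →ₐ[ℚ] ↥(tbFix 𝔓 H₂)) :
        ↥(tbFix 𝔓 H₁) →+* ↥(tbFix 𝔓 H₂)) (f : LaurentSeries ↥(tbFix 𝔓 H₁)) := rfl

/-- `Φ_{H₂} ∘ ι = Φ_{H₁}` -/
theorem tbPhiF_dlaLevInc (h : H₂ ≤ H₁) (f : ↥(tbLevF 𝔓 N H₁)) :
    tbPhiF 𝔓 N H₂ (dlaLevInc 𝔓 N h f) = tbPhiF 𝔓 N H₁ f := by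
  apply Subtype.ext
  rw [coe_tbPhiF, coe_tbPhiF, coe_dlaLevInc, tbPhi, tbPhi, coeffMap_coeffMap]
  exact coeffMap_congr (RingHom.ext fun a => rfl) _

theorem dlaLevInc_injective (h : H₂ ≤ H₁) : Function.Injective (dlaLevInc 𝔓 N h) :=
  (dlaLevInc 𝔓 N h).injective

theorem dlaLevInc_algebraMap (h : H₂ ≤ H₁) (c : ↥(tbFix 𝔓 H₁)) :
    dlaLevInc 𝔓 N h (algebraMap ↥(tbFix 𝔓 H₁) ↥(tbLevF 𝔓 N H₁) c) =
      algebraMap ↥(tbFix 𝔓 H₂) ↥(tbLevF 𝔓 N H₂) (t4cyInc 𝔓 h c) := by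
  apply tbPhiF_injective 𝔓 N H₂
  rw [tbPhiF_dlaLevInc, tbPhiF_algebraMap, tbPhiF_algebraMap, coe_t4cyInc]

end LevInc

section RootMap

variable {F F₂ F₃ : Type*} [Field F] [Field F₂] [Field F₃] (p : ℕ)

/-- base change of the model of the cyclic cover, with a propositional equation for the Kummer
function -/
def dlaRootMap (φ : F →+* F₂) (Z : F) (Z₂ : F₂) (h : φ Z = Z₂) : DlyRoot p Z →+* DlyRoot p Z₂ :=
  AdjoinRoot.map φ _ _ (by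
    rw [Polynomial.map_sub, Polynomial.map_pow, Polynomial.map_X, Polynomial.map_C, h])

theorem dlaRootMap_algebraMap (φ : F →+* F₂) (Z : F) (Z₂ : F₂) (h : φ Z = Z₂) (f : F) :
    dlaRootMap p φ Z Z₂ h (algebraMap F (DlyRoot p Z) f) = algebraMap F₂ (DlyRoot p Z₂) (φ f) := by
  rw [AdjoinRoot.algebraMap_eq, AdjoinRoot.algebraMap_eq, dlaRootMap, AdjoinRoot.map_of]

theorem dlaRootMap_root (φ : F →+* F₂) (Z : F) (Z₂ : F₂) (h : φ Z = Z₂) :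
    dlaRootMap p φ Z Z₂ h (AdjoinRoot.root _) = AdjoinRoot.root _ := by
  rw [dlaRootMap, AdjoinRoot.map_root]

theorem dlaRootMap_mk (φ : F →+* F₂) (Z : F) (Z₂ : F₂) (h : φ Z = Z₂) (T : F[X]) :
    dlaRootMap p φ Z Z₂ h (AdjoinRoot.mk _ T) = AdjoinRoot.mk _ (T.map φ) := by
  unfold dlaRootMap AdjoinRoot.map
  rw [AdjoinRoot.lift_mk, ← Polynomial.eval₂_map, ← AdjoinRoot.algebraMap_eq, ← aeval_def,
    AdjoinRoot.aeval_eq]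

theorem dlaRootMap_eq_dlyRootMap (φ : F →+* F₂) (Z : F) :
    dlaRootMap p φ Z (φ Z) rfl = dlyRootMap p φ Z := rfl

/-- composition of base changes -/
theorem dlaRootMap_comp (φ : F →+* F₂) (ψ : F₂ →+* F₃) (Z : F) (Z₂ : F₂) (Z₃ : F₃)
    (h : φ Z = Z₂) (h' : ψ Z₂ = Z₃) (r : DlyRoot p Z) :
    dlaRootMap p ψ Z₂ Z₃ h' (dlaRootMap p φ Z Z₂ h r) =
      dlaRootMap p (ψ.comp φ) Z Z₃ (by rw [RingHom.comp_apply, h, h']) r := by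
  obtain ⟨T, rfl⟩ := AdjoinRoot.mk_surjective r
  rw [dlaRootMap_mk, dlaRootMap_mk, dlaRootMap_mk, Polynomial.map_map]

theorem dlaRootMap_congr (φ φ' : F →+* F₂) (hφ : φ = φ') (Z : F) (Z₂ : F₂) (h : φ Z = Z₂)
    (r : DlyRoot p Z) :
    dlaRootMap p φ Z Z₂ h r = dlaRootMap p φ' Z Z₂ (by rw [← hφ, h]) r := by
  subst hφ
  rfl

end RootMap

end Fermat.Agent.Delta
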