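/-
DELTA / package I3 (helper4), part 6: **the export of I3 at the finite levels**.

`Z ∈ F_{H₁}` the Kummer function of the toric line `l₀` (leading coefficient `1`), `x ∈ J₀(N)[p]`
with `σ x - x = a(σ) l₀` for `σ ∈ H₁`, PEU.  Then (`dla_level`) there are a level `H ≤ H₁` (normal of
finite index in the inertia group), a Kummer function `zx ∈ F_H` of `x`, `r` in the cover
`F_H[X] ⧸ (X ^ p - Z)` and `z', g` in the cover `F'₁ = F_{H₁}[X] ⧸ (X ^ p - Z)` such that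
`ι z' = zx r ^ p` and `u ^ n τ z' = g ^ p z'` — the inputs of `dly_core_family` / `dlq_core_node`.
-/
import Fermat.Agent.Lib.Delta.Alg.Level

set_option autoImplicit false
set_option linter.unusedSectionVars false
set_option linter.unusedVariables false
set_option linter.style.haveILetI false
set_option synthInstance.maxHeartbeats 400000

open HahnSeries ModularCurve AlgebraicCurve Fermat.Agent.T1 Fermat.Agent.T2 Fermat.Agent.TW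
  Fermat.Agent.S05Lib Fermat.Agent.Alpha Polynomial Fermat.Agent.T4

noncomputable section

namespace Fermat.Agent.Delta

local notation "Qb" => AlgebraicClosure ℚ
local notation "GQ" => (AlgebraicClosure ℚ ≃ₐ[ℚ] AlgebraicClosure ℚ)
local notation "Ω" => LaurentSeries (AlgebraicClosure ℚ)

section Tau

variable {F : Type*} [Field F] (p : ℕ) (Z ζ : F) (hζ : ζ ^ p = 1)

theorem dla_root_pow : (AdjoinRoot.root (X ^ p - Polynomial.C Z : F[X])) ^ p =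
    algebraMap F (DlyRoot p Z) Z := by
  have := AdjoinRoot.eval₂_root (X ^ p - Polynomial.C Z : F[X])
  rw [eval₂_sub, eval₂_pow, eval₂_X, eval₂_C, sub_eq_zero] at this
  exact this

/-- the ring endomorphism `root ↦ ζ root` of the model of the cover -/
def dlaTau : DlyRoot p Z →+* DlyRoot p Z :=
  AdjoinRoot.lift (algebraMap F (DlyRoot p Z))
    (algebraMap F (DlyRoot p Z) ζ * AdjoinRoot.root _) (by
      rw [eval₂_sub, eval₂_pow, eval₂_X, eval₂_C, mul_pow, ← map_pow, hζ, map_one, one_mul,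
        dla_root_pow, sub_self])

theorem dlaTau_of (f : F) :
    dlaTau p Z ζ hζ (algebraMap F (DlyRoot p Z) f) = algebraMap F (DlyRoot p Z) f := by
  unfold dlaTau
  have h : algebraMap F (DlyRoot p Z) f = AdjoinRoot.of _ f := by rw [AdjoinRoot.algebraMap_eq]
  conv_lhs => rw [h]
  rw [AdjoinRoot.lift_of]

theorem dlaTau_root :
    dlaTau p Z ζ hζ (AdjoinRoot.root _) =
      algebraMap F (DlyRoot p Z) ζ * AdjoinRoot.root _ := by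
  unfold dlaTau
  exact AdjoinRoot.lift_root _

end Tau

section Inj

variable {F F₂ : Type*} [Field F] [Field F₂] {p : ℕ} (hp : p.Prime)

include hp in
/-- base change of the model is injective (when the models are fields) -/
theorem dlaRootMap_injective (φ : F →+* F₂) (Z : F) (Z₂ : F₂) (h : φ Z = Z₂)
    (hnp : ∀ c : F, c ^ p ≠ Z) (hnp₂ : ∀ c : F₂, c ^ p ≠ Z₂) :
    Function.Injective (dlaRootMap p φ Z Z₂ h) := by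
  haveI : Fact (Irreducible (X ^ p - Polynomial.C Z : F[X])) := ⟨dly_irreducible_of_npow hp hnp⟩
  haveI : Fact (Irreducible (X ^ p - Polynomial.C Z₂ : F₂[X])) :=
    ⟨dly_irreducible_of_npow hp hnp₂⟩
  exact (dlaRootMap p φ Z Z₂ h).injective

include hp in
theorem dla_model_mul_pow_ne_zero (Z : F) (hnp : ∀ c : F, c ^ p ≠ Z) {f : F} (hf : f ≠ 0)
    {ρ : DlyRoot p Z} (hρ : ρ ≠ 0) : algebraMap F (DlyRoot p Z) f * ρ ^ p ≠ 0 := by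
  haveI : Fact (Irreducible (X ^ p - Polynomial.C Z : F[X])) := ⟨dly_irreducible_of_npow hp hnp⟩
  exact mul_ne_zero ((_root_.map_ne_zero _).mpr hf) (pow_ne_zero _ hρ)

end Inj

section Desc

variable (𝔓 : FFPlace) (N : ℕ) [NeZero N] (H₁ : Subgroup 𝔓.I)

/-- the cover `F[X] ⧸ (X ^ p - Z)` with dummy base data (`ϖ = 1`, `η = p`) -/
def dlaCover {F : Type*} [Field F] [CharZero F] {p : ℕ} (hp : p.Prime) (Z ζ : F)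
    (hζ : IsPrimitiveRoot ζ p) [hirr : Fact (Irreducible (X ^ p - Polynomial.C Z : F[X]))] :
    DlyCover p F (DlyRoot p Z) :=
  dlyRootCover p Z hp 1 (p : F) ζ one_ne_zero (Nat.cast_ne_zero.mpr hp.ne_zero)
    (by rw [one_pow, mul_one]) hζ

theorem dlaAct_tbPhiF (σ : ↥H₁) (f : ↥(tbLevF 𝔓 N H₁)) :
    dlaAct N 𝔓 H₁ σ (tbPhiF 𝔓 N H₁ f) = tbPhiF 𝔓 N H₁ f :=
  t2w_arith_tbPhiF 𝔓 N H₁ (σ : 𝔓.I) σ.2 f

/-- **descent to the level `H₁`**: elements of the cover over `ℚ̄` fixed by `H₁` come from the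
cover at level `H₁` -/
theorem dla_desc_fixed {p : ℕ} (hp : p.Prime) (ζ₁ : ↥(tbFix 𝔓 H₁)) (hζ₁ : IsPrimitiveRoot ζ₁ p)
    (Z : ↥(tbLevF 𝔓 N H₁))
    (hnp : ∀ c : ↥(modularFunctionFieldBar N), c ^ p ≠ tbPhiF 𝔓 N H₁ Z)
    (rb : DlyRoot p (tbPhiF 𝔓 N H₁ Z))
    (hfix : ∀ σ : ↥H₁, dlyRootAct p (dlaAct N 𝔓 H₁ σ) (tbPhiF 𝔓 N H₁ Z)
      (dlaAct_tbPhiF 𝔓 N H₁ σ Z) rb = rb) :
    ∃ r₁ : DlyRoot p Z, dlyRootMap p (tbPhiF 𝔓 N H₁) Z r₁ = rb := by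
  have hnp1 : ∀ c : ↥(tbLevF 𝔓 N H₁), c ^ p ≠ Z := fun c hc =>
    hnp (tbPhiF 𝔓 N H₁ c) (by rw [← map_pow, hc])
  haveI hirrb : Fact (Irreducible (X ^ p - Polynomial.C (tbPhiF 𝔓 N H₁ Z) :
      (↥(modularFunctionFieldBar N))[X])) := ⟨dly_irreducible_of_npow hp hnp⟩
  haveI hirr1 : Fact (Irreducible (X ^ p - Polynomial.C Z : (↥(tbLevF 𝔓 N H₁))[X])) :=
    ⟨dly_irreducible_of_npow hp hnp1⟩
  haveI : CharZero ↥(tbLevF 𝔓 N H₁) :=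
    charZero_of_injective_algebraMap (algebraMap ℚ ↥(tbLevF 𝔓 N H₁)).injective
  haveI : CharZero ↥(modularFunctionFieldBar N) :=
    charZero_of_injective_algebraMap (algebraMap ℚ ↥(modularFunctionFieldBar N)).injective
  have hζF : IsPrimitiveRoot (algebraMap ↥(tbFix 𝔓 H₁) ↥(tbLevF 𝔓 N H₁) ζ₁) p :=
    hζ₁.map_of_injective (algebraMap ↥(tbFix 𝔓 H₁) ↥(tbLevF 𝔓 N H₁)).injective
  have hζb : IsPrimitiveRoot (tbPhiF 𝔓 N H₁ (algebraMap ↥(tbFix 𝔓 H₁) ↥(tbLevF 𝔓 N H₁) ζ₁)) p :=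
    hζF.map_of_injective (tbPhiF_injective 𝔓 N H₁)
  exact dly_descent (dlaCover hp Z _ hζF) (dlaCover hp (tbPhiF 𝔓 N H₁ Z) _ hζb)
    (tbPhiF 𝔓 N H₁) (dlyRootMap p (tbPhiF 𝔓 N H₁) Z)
    (fun f => dlyRootMap_algebraMap p (tbPhiF 𝔓 N H₁) Z f)
    (dlyRootMap_root p (tbPhiF 𝔓 N H₁) Z)
    (fun σ : ↥H₁ => dlaAct N 𝔓 H₁ σ)
    (fun σ : ↥H₁ => dlyRootAct p (dlaAct N 𝔓 H₁ σ) (tbPhiF 𝔓 N H₁ Z) (dlaAct_tbPhiF 𝔓 N H₁ σ Z))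
    (fun σ f => dlyRootAct_algebraMap p _ _ _ f)
    (fun σ => dlyRootAct_root p _ _ _)
    (fun f hf => t2w_exists_tbPhiF_eq 𝔓 N H₁ f (fun σ hσ => hf ⟨σ, hσ⟩))
    hfix

/-- **choice of the level `H`**: an element of the cover over `ℚ̄` and a function come from a
level `H ≤ H₁`, normal of finite index in the inertia group -/
theorem dla_exists_level [H₁.FiniteIndex] (p : ℕ) (Z : ↥(tbLevF 𝔓 N H₁))
    (zxb : ↥(modularFunctionFieldBar N)) (ρb : DlyRoot p (tbPhiF 𝔓 N H₁ Z)) :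
    ∃ (H : Subgroup 𝔓.I) (_ : H.FiniteIndex) (_ : H.Normal) (hle : H ≤ H₁)
      (zx : ↥(tbLevF 𝔓 N H)) (r : DlyRoot p (dlaLevInc 𝔓 N hle Z)),
      tbPhiF 𝔓 N H zx = zxb ∧
      dlaRootMap p (tbPhiF 𝔓 N H) (dlaLevInc 𝔓 N hle Z) (tbPhiF 𝔓 N H₁ Z)
        (tbPhiF_dlaLevInc 𝔓 N hle Z) r = ρb := by
  classical
  obtain ⟨T, rfl⟩ := AdjoinRoot.mk_surjective ρb
  obtain ⟨H, hfi, hn, hle, hT⟩ := t2gs_exists_level 𝔓 N H₁ (insert zxb T.coeffs)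
  obtain ⟨zx, hzx⟩ := hT zxb (Finset.mem_insert_self _ _)
  have hcoeff : ∀ n : ℕ, T.coeff n ∈ Set.range (tbPhiF 𝔓 N H) := by
    intro n
    by_cases h0 : T.coeff n = 0
    · exact ⟨0, by rw [map_zero, h0]⟩
    · obtain ⟨f, hf⟩ := hT _ (Finset.mem_insert_of_mem (Polynomial.coeff_mem_coeffs h0))
      exact ⟨f, hf⟩
  obtain ⟨T_H, hT_H⟩ := (lifts_iff_coeff_lifts T).mpr hcoeff
  replace hT_H : T_H.map (tbPhiF 𝔓 N H) = T := hT_H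
  refine ⟨H, hfi, hn, hle, zx, AdjoinRoot.mk _ T_H, hzx, ?_⟩
  rw [dlaRootMap_mk, hT_H]

/-- **the export of I3 at the finite levels** -/
theorem dla_level [H₁.FiniteIndex] {p : ℕ} (hp : p.Prime)
    (ζ₁ : ↥(tbFix 𝔓 H₁)) (hζ₁ : IsPrimitiveRoot ζ₁ p)
    (Z : ↥(tbLevF 𝔓 N H₁)) (hZ0 : tbPhiF 𝔓 N H₁ Z ≠ 0)
    (hZ : ∀ v : Place Qb ↥(modularFunctionFieldBar N), (p : ℤ) ∣ v.ord (tbPhiF 𝔓 N H₁ Z))
    (hlc : dliLc N (tbPhiF 𝔓 N H₁ Z) = 1)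
    (hl₀ : alpfClass hp.ne_zero (Units.mk0 _ hZ0) hZ ≠ 0)
    (x : JZero N) (hx : (p : ℤ) • x = 0)
    (a : ↥H₁ → ℕ)
    (ha : ∀ σ : ↥H₁, (((σ : ↥H₁) : 𝔓.I) : GQ) • x - x =
      a σ • alpfClass hp.ne_zero (Units.mk0 _ hZ0) hZ)
    (u₁ : ↥(tbFix 𝔓 H₁)) (hu0 : u₁ ≠ 0) (w : Qb) (hw : w ^ p = (u₁ : Qb))
    (hpeu : ∀ σ : ↥H₁, (((σ : ↥H₁) : 𝔓.I) : GQ) w = w → (((σ : ↥H₁) : 𝔓.I) : GQ) • x = x)
    (τ₁ : DlyRoot p Z →+* DlyRoot p Z)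
    (hτof : ∀ f : ↥(tbLevF 𝔓 N H₁),
      τ₁ (algebraMap ↥(tbLevF 𝔓 N H₁) (DlyRoot p Z) f) =
        algebraMap ↥(tbLevF 𝔓 N H₁) (DlyRoot p Z) f)
    (hτroot : τ₁ (AdjoinRoot.root _) =
      algebraMap ↥(tbLevF 𝔓 N H₁) (DlyRoot p Z)
        (algebraMap ↥(tbFix 𝔓 H₁) ↥(tbLevF 𝔓 N H₁) ζ₁) * AdjoinRoot.root _) :
    ∃ (H : Subgroup 𝔓.I) (_ : H.FiniteIndex) (_ : H.Normal) (hle : H ≤ H₁)
      (zx : ↥(tbLevF 𝔓 N H)) (hzx0 : tbPhiF 𝔓 N H zx ≠ 0)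
      (hzx : ∀ v : Place Qb ↥(modularFunctionFieldBar N), (p : ℤ) ∣ v.ord (tbPhiF 𝔓 N H zx)),
      alpfClass hp.ne_zero (Units.mk0 _ hzx0) hzx = x ∧
      ∃ (r : DlyRoot p (dlaLevInc 𝔓 N hle Z)) (z' g : DlyRoot p Z) (n : ℕ),
        r ≠ 0 ∧ z' ≠ 0 ∧ g ≠ 0 ∧
        dlyRootMap p (dlaLevInc 𝔓 N hle) Z z' =
          algebraMap ↥(tbLevF 𝔓 N H) (DlyRoot p (dlaLevInc 𝔓 N hle Z)) zx * r ^ p ∧
        algebraMap ↥(tbLevF 𝔓 N H₁) (DlyRoot p Z)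
            (algebraMap ↥(tbFix 𝔓 H₁) ↥(tbLevF 𝔓 N H₁) u₁) ^ n * τ₁ z' = g ^ p * z' := by
  classical
  have hp0 : p ≠ 0 := hp.ne_zero
  -- irreducibility at the three levels
  have hnpb : ∀ c : ↥(modularFunctionFieldBar N), c ^ p ≠ tbPhiF 𝔓 N H₁ Z :=
    dla_npow_of_class_ne_zero N hp0 _ hZ0 hZ hl₀
  have hnp1 : ∀ c : ↥(tbLevF 𝔓 N H₁), c ^ p ≠ Z := fun c hc =>
    hnpb (tbPhiF 𝔓 N H₁ c) (by rw [← map_pow, hc])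
  -- the base change to `ℚ̄`
  obtain ⟨Ψ₁, hΨ₁⟩ : ∃ Ψ : DlyRoot p Z →+* DlyRoot p (tbPhiF 𝔓 N H₁ Z),
      Ψ = dlyRootMap p (tbPhiF 𝔓 N H₁) Z := ⟨_, rfl⟩
  have hΨ₁inj : Function.Injective Ψ₁ := by
    rw [hΨ₁]
    exact dlaRootMap_injective hp (tbPhiF 𝔓 N H₁) Z _ rfl hnp1 hnpb
  have hΨ₁of : ∀ f : ↥(tbLevF 𝔓 N H₁), Ψ₁ (algebraMap ↥(tbLevF 𝔓 N H₁) (DlyRoot p Z) f) =
      algebraMap ↥(modularFunctionFieldBar N) (DlyRoot p (tbPhiF 𝔓 N H₁ Z)) (tbPhiF 𝔓 N H₁ f) := by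
    intro f
    rw [hΨ₁]
    exact dlyRootMap_algebraMap p (tbPhiF 𝔓 N H₁) Z f
  have hΨ₁root : Ψ₁ (AdjoinRoot.root _) = AdjoinRoot.root _ := by
    rw [hΨ₁]
    exact dlyRootMap_root p (tbPhiF 𝔓 N H₁) Z
  -- the constants over `ℚ̄`
  have hζ : IsPrimitiveRoot (ζ₁ : Qb) p :=
    hζ₁.map_of_injective (algebraMap ↥(tbFix 𝔓 H₁) Qb).injective
  have hζfix : ∀ σ : ↥H₁, (((σ : ↥H₁) : 𝔓.I) : GQ) (ζ₁ : Qb) = (ζ₁ : Qb) :=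
    fun σ => (mem_tbFix 𝔓 H₁ (ζ₁ : Qb)).mp ζ₁.2 σ σ.2
  have huG : ∀ σ : ↥H₁, (((σ : ↥H₁) : 𝔓.I) : GQ) (u₁ : Qb) = (u₁ : Qb) :=
    fun σ => (mem_tbFix 𝔓 H₁ (u₁ : Qb)).mp u₁.2 σ σ.2
  have hu0' : (u₁ : Qb) ≠ 0 := fun h => hu0 (Subtype.ext h)
  -- `τ` over `ℚ̄`
  have hζbp : (algebraMap Qb ↥(modularFunctionFieldBar N) (ζ₁ : Qb)) ^ p = 1 := by
    rw [← map_pow, hζ.pow_eq_one, map_one]
  obtain ⟨τb, hτb⟩ : ∃ τ : DlyRoot p (tbPhiF 𝔓 N H₁ Z) →+* DlyRoot p (tbPhiF 𝔓 N H₁ Z),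
      τ = dlaTau p (tbPhiF 𝔓 N H₁ Z) (algebraMap Qb ↥(modularFunctionFieldBar N) (ζ₁ : Qb)) hζbp :=
    ⟨_, rfl⟩
  have hτbof : ∀ f : ↥(modularFunctionFieldBar N),
      τb (algebraMap ↥(modularFunctionFieldBar N) (DlyRoot p (tbPhiF 𝔓 N H₁ Z)) f) =
        algebraMap ↥(modularFunctionFieldBar N) (DlyRoot p (tbPhiF 𝔓 N H₁ Z)) f := by
    intro f
    rw [hτb]
    exact dlaTau_of p _ _ hζbp f
  have hτbroot : τb (AdjoinRoot.root _) =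
      algebraMap ↥(modularFunctionFieldBar N) (DlyRoot p (tbPhiF 𝔓 N H₁ Z))
        (algebraMap Qb ↥(modularFunctionFieldBar N) (ζ₁ : Qb)) * AdjoinRoot.root _ := by
    rw [hτb]
    exact dlaTau_root p _ _ hζbp
  have hτΨ : ∀ r : DlyRoot p Z, Ψ₁ (τ₁ r) = τb (Ψ₁ r) := by
    have h : Ψ₁.comp τ₁ = τb.comp Ψ₁ := by
      apply dla_adjoinRoot_ringHom_ext
      · intro f
        show Ψ₁ (τ₁ (algebraMap ↥(tbLevF 𝔓 N H₁) (DlyRoot p Z) f)) =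
          τb (Ψ₁ (algebraMap ↥(tbLevF 𝔓 N H₁) (DlyRoot p Z) f))
        rw [hτof, hΨ₁of, hτbof]
      · show Ψ₁ (τ₁ (AdjoinRoot.root _)) = τb (Ψ₁ (AdjoinRoot.root _))
        rw [hτroot, map_mul, hΨ₁of, hΨ₁root, hτbroot, tbPhiF_algebraMap]
    exact fun r => RingHom.congr_fun h r
  -- the trace trick over `ℚ̄`
  obtain ⟨zxb, hzxb, hclb, ρb, gb, n, hρb0, hgb0, hfixz, hfixg, hrelb⟩ :=
    dla_inst N 𝔓 H₁ hp (ζ₁ : Qb) hζ hζfix (tbPhiF 𝔓 N H₁ Z) hZ0 hZ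
      (fun σ => dlaAct_tbPhiF 𝔓 N H₁ σ Z) hlc hl₀ x hx a ha (u₁ : Qb) w hw hu0' huG hpeu τb
      hτbof hτbroot
  -- descent to the level `H₁`
  obtain ⟨z', hz'⟩ := dla_desc_fixed 𝔓 N H₁ hp ζ₁ hζ₁ Z hnpb _ hfixz
  obtain ⟨g, hg⟩ := dla_desc_fixed 𝔓 N H₁ hp ζ₁ hζ₁ Z hnpb _ hfixg
  rw [← hΨ₁] at hz' hg
  -- the level `H`
  obtain ⟨H, hfi, hn, hle, zx, r, hzx, hr⟩ := dla_exists_level 𝔓 N H₁ p Z
    (zxb : ↥(modularFunctionFieldBar N)) ρb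
  have hzx0 : tbPhiF 𝔓 N H zx ≠ 0 := by rw [hzx]; exact zxb.ne_zero
  have hzxd : ∀ v : Place Qb ↥(modularFunctionFieldBar N), (p : ℤ) ∣ v.ord (tbPhiF 𝔓 N H zx) := by
    intro v
    rw [hzx]
    exact hzxb v
  have hnpH : ∀ c : ↥(tbLevF 𝔓 N H), c ^ p ≠ dlaLevInc 𝔓 N hle Z := fun c hc =>
    hnpb (tbPhiF 𝔓 N H c) (by rw [← map_pow, hc, tbPhiF_dlaLevInc])
  obtain ⟨ΨH, hΨH⟩ : ∃ Ψ : DlyRoot p (dlaLevInc 𝔓 N hle Z) →+* DlyRoot p (tbPhiF 𝔓 N H₁ Z),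
      Ψ = dlaRootMap p (tbPhiF 𝔓 N H) (dlaLevInc 𝔓 N hle Z) (tbPhiF 𝔓 N H₁ Z)
        (tbPhiF_dlaLevInc 𝔓 N hle Z) := ⟨_, rfl⟩
  rw [← hΨH] at hr
  have hΨHinj : Function.Injective ΨH := by
    rw [hΨH]
    exact dlaRootMap_injective hp (tbPhiF 𝔓 N H) _ _ _ hnpH hnpb
  have hΨcomp : ∀ r' : DlyRoot p Z, ΨH (dlyRootMap p (dlaLevInc 𝔓 N hle) Z r') = Ψ₁ r' := by
    intro r'
    have h1 := dlaRootMap_comp p (dlaLevInc 𝔓 N hle) (tbPhiF 𝔓 N H) Z (dlaLevInc 𝔓 N hle Z)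
      (tbPhiF 𝔓 N H₁ Z) rfl (tbPhiF_dlaLevInc 𝔓 N hle Z) r'
    rw [dlaRootMap_eq_dlyRootMap] at h1
    rw [hΨH, h1]
    have h2 : (tbPhiF 𝔓 N H).comp (dlaLevInc 𝔓 N hle) = tbPhiF 𝔓 N H₁ :=
      RingHom.ext (fun f => tbPhiF_dlaLevInc 𝔓 N hle f)
    rw [dlaRootMap_congr p _ _ h2, hΨ₁]
    rfl
  have hz'0 : z' ≠ 0 := by
    intro h0
    rw [h0, map_zero] at hz'
    exact dla_model_mul_pow_ne_zero hp _ hnpb zxb.ne_zero hρb0 hz'.symm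
  have hg0 : g ≠ 0 := by
    intro h0
    rw [h0, map_zero] at hg
    exact hgb0 hg.symm
  have hr0 : r ≠ 0 := by
    intro h0
    rw [h0, map_zero] at hr
    exact hρb0 hr.symm
  refine ⟨H, hfi, hn, hle, zx, hzx0, hzxd, ?_, r, z', g, n, hr0, hz'0, hg0, ?_, ?_⟩
  · rw [← hclb]
    apply dli_class_congr N hp0
    apply Units.ext
    rw [Units.val_mk0, hzx]
  · apply hΨHinj
    rw [hΨcomp, hz', map_mul, map_pow, hr, hΨH, dlaRootMap_algebraMap, hzx]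
  · apply hΨ₁inj
    have eA : Ψ₁ (algebraMap ↥(tbLevF 𝔓 N H₁) (DlyRoot p Z)
        (algebraMap ↥(tbFix 𝔓 H₁) ↥(tbLevF 𝔓 N H₁) u₁)) =
        algebraMap ↥(modularFunctionFieldBar N) (DlyRoot p (tbPhiF 𝔓 N H₁ Z))
          (algebraMap Qb ↥(modularFunctionFieldBar N) (u₁ : Qb)) :=
      (hΨ₁of _).trans (congrArg _ (tbPhiF_algebraMap 𝔓 N H₁ u₁))
    have eτ : Ψ₁ (τ₁ z') = τb (algebraMap ↥(modularFunctionFieldBar N)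
        (DlyRoot p (tbPhiF 𝔓 N H₁ Z)) (zxb : ↥(modularFunctionFieldBar N)) * ρb ^ p) :=
      (hτΨ z').trans (congrArg τb hz')
    have eL : Ψ₁ (algebraMap ↥(tbLevF 𝔓 N H₁) (DlyRoot p Z)
        (algebraMap ↥(tbFix 𝔓 H₁) ↥(tbLevF 𝔓 N H₁) u₁) ^ n * τ₁ z') =
        Ψ₁ (algebraMap ↥(tbLevF 𝔓 N H₁) (DlyRoot p Z)
          (algebraMap ↥(tbFix 𝔓 H₁) ↥(tbLevF 𝔓 N H₁) u₁)) ^ n * Ψ₁ (τ₁ z') :=
      (map_mul Ψ₁ _ _).trans (congrArg (fun t => t * Ψ₁ (τ₁ z')) (map_pow Ψ₁ _ n))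
    have eR : Ψ₁ (g ^ p * z') = Ψ₁ g ^ p * Ψ₁ z' :=
      (map_mul Ψ₁ _ _).trans (congrArg (fun t => t * Ψ₁ z') (map_pow Ψ₁ _ p))
    exact eL.trans ((congrArg₂ (fun s t => s ^ n * t) eA eτ).trans (hrelb.trans
      ((congrArg₂ (fun s t => s ^ p * t) hg hz').symm.trans eR.symm)))

end Desc

end Fermat.Agent.Delta
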