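/-
DELTA / package I3 (helper4), part 7: **the export of I3 in terms of helper7's level map `dlqlF`**
(`Core/Level.lean`).  `dlaLevInc 𝔓 N hle = dlqlF 𝔓 hle N` definitionally; `dla_level'` is
`dla_level` restated with `dlqlF`.
-/
import Fermat.Agent.Lib.Delta.Alg.Descend
import Fermat.Agent.Lib.Delta.Core.Level

set_option autoImplicit false
set_option linter.unusedSectionVars false
set_option linter.unusedVariables false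
set_option linter.style.haveILetI false
set_option synthInstance.maxHeartbeats 400000

open HahnSeries ModularCurve AlgebraicCurve Fermat.Agent.T1 Fermat.Agent.T2 Fermat.Agent.TW
  Fermat.Agent.S05Lib Fermat.Agent.Alpha Polynomial Fermat.Agent.T4

noncomputable section

namespace Fermat.Agent.Delta

local notation "Qb" => AlgebraicClosure ℚ
local notation "GQ" => (AlgebraicClosure ℚ ≃ₐ[ℚ] AlgebraicClosure ℚ)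

variable (𝔓 : FFPlace) (N : ℕ) [NeZero N]

theorem dlaLevInc_eq_dlqlF {H₁ H : Subgroup 𝔓.I} (hle : H ≤ H₁) :
    dlaLevInc 𝔓 N hle = dlqlF 𝔓 hle N := rfl

/-- **the export of I3 at the finite levels**, with the level map `dlqlF` -/
theorem dla_level' (H₁ : Subgroup 𝔓.I) [H₁.FiniteIndex] {p : ℕ} (hp : p.Prime)
    (ζ₁ : ↥(tbFix 𝔓 H₁)) (hζ₁ : IsPrimitiveRoot ζ₁ p)
    (Z : ↥(tbLevF 𝔓 N H₁)) (hZ0 : tbPhiF 𝔓 N H₁ Z ≠ 0)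
    (hZ : ∀ v : Place Qb ↥(modularFunctionFieldBar N), (p : ℤ) ∣ v.ord (tbPhiF 𝔓 N H₁ Z))
    (hlc : dliLc N (tbPhiF 𝔓 N H₁ Z) = 1)
    (hl₀ : alpfClass hp.ne_zero (Units.mk0 _ hZ0) hZ ≠ 0)
    (x : JZero N) (hx : (p : ℤ) • x = 0)
    (a : ↥H₁ → ℕ)
    (ha : ∀ σ : ↥H₁, (((σ : ↥H₁) : 𝔓.I) : GQ) • x - x =
      a σ • alpfClass hp.ne_zero (Units.mk0 _ hZ0) hZ)
    (u₁ : ↥(tbFix 𝔓 H₁)) (hu0 : u₁ ≠ 0) (w : Qb) (hw : w ^ p = (u₁ : Qb))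
    (hpeu : ∀ σ : ↥H₁, (((σ : ↥H₁) : 𝔓.I) : GQ) w = w → (((σ : ↥H₁) : 𝔓.I) : GQ) • x = x)
    (τ₁ : DlyRoot p Z →+* DlyRoot p Z)
    (hτof : ∀ f : ↥(tbLevF 𝔓 N H₁),
      τ₁ (algebraMap ↥(tbLevF 𝔓 N H₁) (DlyRoot p Z) f) =
        algebraMap ↥(tbLevF 𝔓 N H₁) (DlyRoot p Z) f)
    (hτroot : τ₁ (AdjoinRoot.root _) =
      algebraMap ↥(tbLevF 𝔓 N H₁) (DlyRoot p Z)
        (algebraMap ↥(tbFix 𝔓 H₁) ↥(tbLevF 𝔓 N H₁) ζ₁) * AdjoinRoot.root _) :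
    ∃ (H : Subgroup 𝔓.I) (_ : H.FiniteIndex) (_ : H.Normal) (hle : H ≤ H₁)
      (zx : ↥(tbLevF 𝔓 N H)) (hzx0 : tbPhiF 𝔓 N H zx ≠ 0)
      (hzx : ∀ v : Place Qb ↥(modularFunctionFieldBar N), (p : ℤ) ∣ v.ord (tbPhiF 𝔓 N H zx)),
      alpfClass hp.ne_zero (Units.mk0 _ hzx0) hzx = x ∧
      ∃ (r : DlyRoot p (dlqlF 𝔓 hle N Z)) (z' g : DlyRoot p Z) (n : ℕ),
        r ≠ 0 ∧ z' ≠ 0 ∧ g ≠ 0 ∧
        dlyRootMap p (dlqlF 𝔓 hle N) Z z' =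
          algebraMap ↥(tbLevF 𝔓 N H) (DlyRoot p (dlqlF 𝔓 hle N Z)) zx * r ^ p ∧
        algebraMap ↥(tbLevF 𝔓 N H₁) (DlyRoot p Z)
            (algebraMap ↥(tbFix 𝔓 H₁) ↥(tbLevF 𝔓 N H₁) u₁) ^ n * τ₁ z' = g ^ p * z' :=
  dla_level 𝔓 N H₁ hp ζ₁ hζ₁ Z hZ0 hZ hlc hl₀ x hx a ha u₁ hu0 w hw hpeu τ₁ hτof hτroot

end Fermat.Agent.Delta
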